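import Fermat.Agent.Dim.Count
import Fermat.Agent.Cosets.Cusps

/-! # Solving for the dimension of the space of weight two cusp forms. -/

set_option autoImplicit false

open UpperHalfPlane ModularForm Complex Filter Topology Matrix.SpecialLinearGroup Matrix
open scoped MatrixGroups Manifold

namespace Fermat.Agent.Dim

noncomputable section

open Fermat.Agent.MFLib

set_option linter.unusedSectionVars false

variable {k l w : ℤ} {f g : ℍ → ℂ}

lemma A_val {m : ℤ} (M : ℕ) (h : m = M) (hM : Even M) :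
    Module.finrank ℂ (mf ⊤ m) = if M % 12 = 2 then M / 12 else M / 12 + 1 := by
  subst h; exact A_even M hM

/-- level one dimensions as a plain function -/
def dimA (m : ℤ) : ℕ := Module.finrank ℂ (mf ⊤ m)

lemma dimA_even (M : ℕ) (hM : Even M) :
    dimA (M : ℤ) = if M % 12 = 2 then M / 12 else M / 12 + 1 := A_even M hM

namespace Frame

variable {Γ : Subgroup SL(2, ℤ)} [Γ.FiniteIndex] (Fr : Frame Γ)

/-- number of generators of degree `m` -/
def cnt (m : ℕ) : ℕ := (Finset.univ.filter fun i => Fr.d i = m).card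

lemma sum_comp {M : Type*} [AddCommMonoid M] (ψ : ℕ → M) :
    ∑ i, ψ (Fr.d i) = Fr.cnt 0 • ψ 0 + Fr.cnt 2 • ψ 2 + Fr.cnt 4 • ψ 4 + Fr.cnt 6 • ψ 6 +
      Fr.cnt 8 • ψ 8 + Fr.cnt 10 • ψ 10 := by
  classical
  have h1 := Finset.sum_fiberwise_of_maps_to (s := Finset.univ) (t := ({0, 2, 4, 6, 8, 10} : Finset ℕ))
    (g := Fr.d) (fun i _ => Fr.d_mem i) (fun i => ψ (Fr.d i))
  rw [← h1]
  have h2 : ∀ m ∈ ({0, 2, 4, 6, 8, 10} : Finset ℕ),
      ∑ i ∈ Finset.univ.filter (fun i => Fr.d i = m), ψ (Fr.d i) = Fr.cnt m • ψ m := by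
    intro m _
    rw [Finset.sum_congr rfl (g := fun _ => ψ m), Finset.sum_const]
    · rfl
    · intro i hi
      rw [(Finset.mem_filter.mp hi).2]
  rw [Finset.sum_congr rfl h2]
  simp [add_assoc]

lemma cnt_total : Fr.cnt 0 + Fr.cnt 2 + Fr.cnt 4 + Fr.cnt 6 + Fr.cnt 8 + Fr.cnt 10 =
    Nat.card (SL(2, ℤ) ⧸ Γ) := by
  have := Fr.sum_comp (fun _ => 1)
  simp only [smul_eq_mul, mul_one, Finset.sum_const, Finset.card_univ] at this
  rw [← this, Nat.card_eq_fintype_card]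

lemma cnt_zero : Fr.cnt 0 = 1 := by
  have h1 : Module.finrank ℂ (mf Γ 0) = 1 := by
    have h2 : Nonempty (ℂ ≃ₗ[ℂ] mf Γ 0) := by
      refine ⟨LinearEquiv.ofBijective
        { toFun := fun c => ⟨Function.const ℍ c, IsMF.const c⟩
          map_add' := fun a b => rfl
          map_smul' := fun a b => rfl } ⟨fun a b hab => ?_, fun F => ?_⟩⟩
      · have := congrArg (fun F : mf Γ 0 => (F : ℍ → ℂ) UpperHalfPlane.I) hab
        exact this
      · obtain ⟨c, hc⟩ := isMF_zero_weight F.2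
        exact ⟨c, Subtype.ext hc.symm⟩
    obtain ⟨e⟩ := h2
    rw [← e.finrank_eq, Module.finrank_self]
  rw [Fr.finrank_mf, Fr.sum_comp (fun m => Module.finrank ℂ (mf ⊤ (0 - (m : ℤ))))] at h1
  rw [A_val (m := 0 - ((0 : ℕ) : ℤ)) 0 (by norm_num) (by decide),
    A_neg (m := 0 - ((2 : ℕ) : ℤ)) (by norm_num), A_neg (m := 0 - ((4 : ℕ) : ℤ)) (by norm_num),
    A_neg (m := 0 - ((6 : ℕ) : ℤ)) (by norm_num), A_neg (m := 0 - ((8 : ℕ) : ℤ)) (by norm_num),
    A_neg (m := 0 - ((10 : ℕ) : ℤ)) (by norm_num)] at h1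
  simpa using h1

lemma finrank_cf_two : Module.finrank ℂ (cf Γ 2) = Fr.cnt 10 := by
  rw [Fr.finrank_cf, Fr.sum_comp (fun m => Module.finrank ℂ (mf ⊤ (2 - 12 + (m : ℤ))))]
  rw [A_val (m := 2 - 12 + ((10 : ℕ) : ℤ)) 0 (by norm_num) (by decide),
    A_neg (m := 2 - 12 + ((2 : ℕ) : ℤ)) (by norm_num),
    A_neg (m := 2 - 12 + ((4 : ℕ) : ℤ)) (by norm_num),
    A_neg (m := 2 - 12 + ((6 : ℕ) : ℤ)) (by norm_num),
    A_neg (m := 2 - 12 + ((8 : ℕ) : ℤ)) (by norm_num),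
    A_neg (m := 2 - 12 + ((0 : ℕ) : ℤ)) (by norm_num)]
  simp

lemma cusp_relation [∀ w, Module.Finite ℂ (mf Γ w)] :
    (6 : ℤ) * Fr.cnt 0 + 4 * Fr.cnt 2 + 2 * Fr.cnt 4 - 2 * Fr.cnt 8 - 4 * Fr.cnt 10 =
      6 * Nat.card (MulAction.orbitRel.Quotient (Subgroup.zpowers ModularGroup.T)
        (SL(2, ℤ) ⧸ Γ)) := by
  set c := Nat.card (MulAction.orbitRel.Quotient (Subgroup.zpowers ModularGroup.T)
        (SL(2, ℤ) ⧸ Γ)) with hc
  have key : ∀ w : ℤ, 16 ≤ w → Even w →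
      ∑ i, Module.finrank ℂ (mf ⊤ (w - Fr.d i)) =
        ∑ i, Module.finrank ℂ (mf ⊤ (w - 12 + Fr.d i)) + c := by
    intro w hw hev
    rw [← Fr.finrank_mf, ← Fr.finrank_cf]
    exact finrank_mf_eq Fr hw hev
  have h24 := key 24 (by norm_num) (by decide)
  have h26 := key 26 (by norm_num) (by decide)
  have h28 := key 28 (by norm_num) (by decide)
  have h30 := key 30 (by norm_num) (by decide)
  have h32 := key 32 (by norm_num) (by decide)
  have h34 := key 34 (by norm_num) (by decide)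
  have e1 : ∀ w : ℤ, ∑ i, Module.finrank ℂ (mf ⊤ (w - Fr.d i)) = _ := fun w =>
    Fr.sum_comp (fun m => dimA (w - (m : ℤ)))
  have e2 : ∀ w : ℤ, ∑ i, Module.finrank ℂ (mf ⊤ (w - 12 + Fr.d i)) = _ := fun w =>
    Fr.sum_comp (fun m => dimA (w - 12 + (m : ℤ)))
  rw [e1, e2] at h24 h26 h28 h30 h32 h34
  have a2 := dimA_even 2 (by decide)
  have a4 := dimA_even 4 (by decide)
  have a6 := dimA_even 6 (by decide)
  have a8 := dimA_even 8 (by decide)
  have a10 := dimA_even 10 (by decide)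
  have a12 := dimA_even 12 (by decide)
  have a14 := dimA_even 14 (by decide)
  have a16 := dimA_even 16 (by decide)
  have a18 := dimA_even 18 (by decide)
  have a20 := dimA_even 20 (by decide)
  have a22 := dimA_even 22 (by decide)
  have a24 := dimA_even 24 (by decide)
  have a26 := dimA_even 26 (by decide)
  have a28 := dimA_even 28 (by decide)
  have a30 := dimA_even 30 (by decide)
  have a32 := dimA_even 32 (by decide)
  have a34 := dimA_even 34 (by decide)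
  norm_num at a2 a4 a6 a8 a10 a12 a14 a16 a18 a20 a22 a24 a26 a28 a30 a32 a34
  norm_num [a2, a4, a6, a8, a10, a12, a14, a16, a18, a20, a22, a24, a26, a28, a30, a32, a34]
    at h24 h26 h28 h30 h32 h34
  omega

lemma trace_relation {γ : SL(2, ℤ)} {z : ℍ} (h : γ • z = z) :
    (Nat.card {x : SL(2, ℤ) ⧸ Γ // γ • x = x} : ℂ) = ∑ i, (denom γ z ^ Fr.d i)⁻¹ := by
  rw [← trace_perm]
  have h1 := Fr.F_smul γ z
  rw [h] at h1
  set δ : ℂ := denom γ z with hδ
  have hδ0 : δ ≠ 0 := denom_ne_zero _ _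
  have h2 : Matrix.diagonal (fun i => (δ ^ Fr.d i)⁻¹) * Fr.F z = Fr.F z * perm Γ γ := by
    conv_lhs => rw [h1]
    rw [← Matrix.mul_assoc, ← Matrix.mul_assoc, Matrix.diagonal_mul_diagonal]
    have : (fun i => (δ ^ Fr.d i)⁻¹ * δ ^ Fr.d i) = fun _ => 1 := by
      ext i; exact inv_mul_cancel₀ (pow_ne_zero _ hδ0)
    rw [this, Matrix.diagonal_one, Matrix.one_mul]
  have h3 : perm Γ γ = (Fr.F z)⁻¹ * (Matrix.diagonal (fun i => (δ ^ Fr.d i)⁻¹) * Fr.F z) := by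
    rw [h2, ← Matrix.mul_assoc, Matrix.nonsing_inv_mul _ (Fr.isUnit_det_F z), Matrix.one_mul]
  rw [h3, Matrix.trace_mul_comm, Matrix.mul_assoc, Matrix.mul_nonsing_inv _ (Fr.isUnit_det_F z),
    Matrix.mul_one, Matrix.trace_diagonal]

lemma S_relation : (Fr.cnt 0 : ℤ) - Fr.cnt 2 + Fr.cnt 4 - Fr.cnt 6 + Fr.cnt 8 - Fr.cnt 10 =
    Nat.card {x : SL(2, ℤ) ⧸ Γ // ModularGroup.S • x = x} := by
  have h1 : ModularGroup.S • UpperHalfPlane.I = UpperHalfPlane.I := by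
    rw [UpperHalfPlane.modular_S_smul]
    ext
    simp
  have h2 := Fr.trace_relation h1
  have h3 : denom ModularGroup.S UpperHalfPlane.I = Complex.I := by
    rw [ModularGroup.denom_apply]
    simp [ModularGroup.S]
  rw [h3, Fr.sum_comp (fun m => (Complex.I ^ m)⁻¹)] at h2
  have i2 : Complex.I ^ 2 = -1 := Complex.I_sq
  have i4 : Complex.I ^ 4 = 1 := Complex.I_pow_four
  have i6 : Complex.I ^ 6 = -1 := by rw [show 6 = 4 + 2 by norm_num, pow_add, i2, i4]; norm_num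
  have i8 : Complex.I ^ 8 = 1 := by rw [show 8 = 4 + 4 by norm_num, pow_add, i4]; norm_num
  have i10 : Complex.I ^ 10 = -1 := by rw [show 10 = 8 + 2 by norm_num, pow_add, i2, i8]; norm_num
  rw [i2, i4, i6, i8, i10] at h2
  have h4 : ((Nat.card {x : SL(2, ℤ) ⧸ Γ // ModularGroup.S • x = x} : ℤ) : ℂ) =
      (((Fr.cnt 0 : ℤ) - Fr.cnt 2 + Fr.cnt 4 - Fr.cnt 6 + Fr.cnt 8 - Fr.cnt 10 : ℤ) : ℂ) := by
    push_cast
    rw [h2]
    simp only [nsmul_eq_mul]
    norm_num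
    ring
  exact_mod_cast h4.symm

/-- the elliptic point of order three -/
def rho : ℍ := ⟨⟨-1 / 2, Real.sqrt 3 / 2⟩, by simp⟩

lemma rho_sq : (rho : ℂ) ^ 2 = -1 - rho := by
  have h3 : Real.sqrt 3 * Real.sqrt 3 = 3 := Real.mul_self_sqrt (by norm_num)
  have hr : (rho : ℂ) = ⟨-1 / 2, Real.sqrt 3 / 2⟩ := rfl
  rw [hr, sq]
  apply Complex.ext
  · simp only [Complex.mul_re, Complex.sub_re, Complex.neg_re, Complex.one_re]
    nlinarith
  · simp only [Complex.mul_im, Complex.sub_im, Complex.neg_im, Complex.one_im]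
    nlinarith

lemma ST_relation :
    (Fr.cnt 4 : ℤ) + Fr.cnt 10 = Fr.cnt 2 + Fr.cnt 8 ∧
    (Fr.cnt 0 : ℤ) + Fr.cnt 6 - Fr.cnt 2 - Fr.cnt 8 =
    Nat.card {x : SL(2, ℤ) ⧸ Γ // (ModularGroup.S * ModularGroup.T) • x = x} := by
  have hsq := rho_sq
  have hne : (rho : ℂ) + 1 ≠ 0 := by
    intro h
    have := congrArg Complex.im h
    have hr : (rho : ℂ) = ⟨-1 / 2, Real.sqrt 3 / 2⟩ := rfl
    rw [hr] at this
    simp at this
  have h1 : (ModularGroup.S * ModularGroup.T) • rho = rho := by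
    rw [mul_smul, UpperHalfPlane.modular_S_smul, UpperHalfPlane.modular_T_smul]
    apply UpperHalfPlane.ext
    have hT : (((1 : ℝ) +ᵥ rho : ℍ) : ℂ) = rho + 1 := by
      rw [UpperHalfPlane.coe_vadd]; push_cast; ring
    change (-(((1 : ℝ) +ᵥ rho : ℍ) : ℂ))⁻¹ = rho
    rw [hT]
    have : (-((rho : ℂ) + 1)) ≠ 0 := neg_ne_zero.mpr hne
    refine inv_eq_of_mul_eq_one_left ?_
    linear_combination (-1 : ℂ) * hsq
  have h2 := Fr.trace_relation h1
  have h3 : denom (ModularGroup.S * ModularGroup.T : SL(2, ℤ)) rho = rho + 1 := by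
    rw [ModularGroup.denom_apply]
    simp [ModularGroup.S, ModularGroup.T, Matrix.mul_apply, Fin.sum_univ_two]
  rw [h3, Fr.sum_comp (fun m => (((rho : ℂ) + 1) ^ m)⁻¹)] at h2
  set r : ℂ := (rho : ℂ) with hr
  have p2 : (r + 1) ^ 2 = r := by linear_combination hsq
  have r3 : r ^ 3 = 1 := by
    rw [pow_succ, hsq]; linear_combination (-1 : ℂ) * hsq
  have q0 : ((r + 1) ^ 0)⁻¹ = 1 := by simp
  have q2 : ((r + 1) ^ 2)⁻¹ = -1 - r := by
    rw [p2, ← hsq]
    refine inv_eq_of_mul_eq_one_left ?_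
    linear_combination r3
  have q4 : ((r + 1) ^ 4)⁻¹ = r := by
    rw [show 4 = 2 * 2 by norm_num, pow_mul, p2]
    refine inv_eq_of_mul_eq_one_left ?_
    linear_combination r3
  have q6 : ((r + 1) ^ 6)⁻¹ = 1 := by
    rw [show 6 = 2 * 3 by norm_num, pow_mul, p2, r3, inv_one]
  have q8 : ((r + 1) ^ 8)⁻¹ = -1 - r := by
    rw [show 8 = 2 + 6 by norm_num, pow_add, mul_inv, q2, q6, mul_one]
  have q10 : ((r + 1) ^ 10)⁻¹ = r := by
    rw [show 10 = 4 + 6 by norm_num, pow_add, mul_inv, q4, q6, mul_one]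
  rw [q0, q2, q4, q6, q8, q10] at h2
  simp only [nsmul_eq_mul] at h2
  have him : r.im ≠ 0 := by
    have : r.im = Real.sqrt 3 / 2 := rfl
    rw [this]; positivity
  have hIm := congrArg Complex.im h2
  simp only [Complex.add_im, Complex.mul_im, Complex.natCast_re, Complex.natCast_im, zero_mul,
    add_zero, Complex.one_im, mul_zero, Complex.sub_im, Complex.neg_im, Complex.one_re,
    Complex.sub_re, Complex.neg_re] at hIm
  have hA : ((Fr.cnt 4 : ℝ) + Fr.cnt 10 - Fr.cnt 2 - Fr.cnt 8) * r.im = 0 := by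
    linear_combination -hIm
  have hA' : (Fr.cnt 4 : ℝ) + Fr.cnt 10 - Fr.cnt 2 - Fr.cnt 8 = 0 :=
    (mul_eq_zero.mp hA).resolve_right him
  have hRe := congrArg Complex.re h2
  simp only [Complex.add_re, Complex.mul_re, Complex.natCast_re, Complex.natCast_im, zero_mul,
    add_zero, Complex.one_re, mul_zero, Complex.sub_re, Complex.neg_re, Complex.one_im,
    Complex.sub_im, Complex.neg_im, sub_zero, mul_one] at hRe
  have hB : ((Nat.card {x : SL(2, ℤ) ⧸ Γ // (ModularGroup.S * ModularGroup.T) • x = x} : ℕ) : ℝ) =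
      (Fr.cnt 0 : ℝ) + Fr.cnt 6 - Fr.cnt 2 - Fr.cnt 8 := by
    rw [hRe]
    linear_combination (r.re) * hA'
  constructor
  · have : (Fr.cnt 4 : ℝ) + Fr.cnt 10 = Fr.cnt 2 + Fr.cnt 8 := by linear_combination hA'
    exact_mod_cast this
  · have h5 : (((Nat.card {x : SL(2, ℤ) ⧸ Γ // (ModularGroup.S * ModularGroup.T) • x = x} : ℕ) :
      ℤ) : ℝ) = (((Fr.cnt 0 : ℤ) + Fr.cnt 6 - Fr.cnt 2 - Fr.cnt 8 : ℤ) : ℝ) := by
      push_cast
      exact hB
    exact_mod_cast h5.symm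

include Fr in
/-- the dimension formula -/
theorem genus_formula [∀ w, Module.Finite ℂ (mf Γ w)] :
    (Module.finrank ℂ (cf Γ 2) : ℚ) = 1 + (Nat.card (SL(2, ℤ) ⧸ Γ) : ℚ) / 12 -
      (Nat.card {x : SL(2, ℤ) ⧸ Γ // ModularGroup.S • x = x} : ℚ) / 4 -
      (Nat.card {x : SL(2, ℤ) ⧸ Γ // (ModularGroup.S * ModularGroup.T) • x = x} : ℚ) / 3 -
      (Nat.card (MulAction.orbitRel.Quotient (Subgroup.zpowers ModularGroup.T)
        (SL(2, ℤ) ⧸ Γ)) : ℚ) / 2 := by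
  have h0 := Fr.cnt_zero
  have h1 := Fr.cnt_total
  have h2 := Fr.cusp_relation
  have h3 := Fr.S_relation
  obtain ⟨h4, h5⟩ := Fr.ST_relation
  rw [Fr.finrank_cf_two]
  set c := Nat.card (MulAction.orbitRel.Quotient (Subgroup.zpowers ModularGroup.T)
        (SL(2, ℤ) ⧸ Γ))
  set e2 := Nat.card {x : SL(2, ℤ) ⧸ Γ // ModularGroup.S • x = x}
  set e3 := Nat.card {x : SL(2, ℤ) ⧸ Γ // (ModularGroup.S * ModularGroup.T) • x = x}
  set μ := Nat.card (SL(2, ℤ) ⧸ Γ)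
  have key : (12 : ℤ) * Fr.cnt 10 = 12 + μ - 3 * e2 - 4 * e3 - 6 * c := by omega
  have key' : (12 : ℚ) * Fr.cnt 10 = 12 + μ - 3 * e2 - 4 * e3 - 6 * c := by exact_mod_cast key
  linarith

end Frame

end

end Fermat.Agent.Dim
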