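import Fermat.Agent.Dim.Solve
import Fermat.Agent.S20

/-! # The dimension of the spaces of modular forms of weight `12 n`. -/

set_option autoImplicit false

open UpperHalfPlane ModularForm Complex Filter Topology Matrix.SpecialLinearGroup Matrix
open scoped MatrixGroups Manifold

namespace Fermat.Agent.Dim

noncomputable section

open Fermat.Agent.MFLib

namespace Frame

variable {Γ : Subgroup SL(2, ℤ)} [Γ.FiniteIndex] (Fr : Frame Γ)

lemma dimA_twelve_sub {n d : ℕ} (hn : 1 ≤ n) (hd : d < 12) (hev : Even d) :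
    (dimA (12 * n - d) : ℤ) = n + (if d = 0 then 1 else 0) - (if d = 10 then 1 else 0) := by
  have h1 : (12 * (n : ℤ) - d) = ((12 * n - d : ℕ) : ℤ) := by
    rw [Nat.cast_sub (by omega)]; push_cast; ring
  obtain ⟨r, hr⟩ := hev
  rw [h1, dimA_even _ (by
    rw [Nat.even_sub (by omega)]
    refine iff_of_true ⟨6 * n, by ring⟩ ⟨r, hr⟩)]
  subst hr
  split_ifs <;> omega

include Fr in
theorem finrank_mf_twelve {n : ℕ} (hn : 1 ≤ n) :
    (Module.finrank ℂ (mf Γ (12 * n)) : ℤ) =
      n * Nat.card (SL(2, ℤ) ⧸ Γ) + 1 - Module.finrank ℂ (cf Γ 2) := by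
  rw [Fr.finrank_mf, Fr.finrank_cf_two, ← Fr.cnt_total]
  have h0 := Fr.cnt_zero
  have e1 : ∑ i, Module.finrank ℂ (mf ⊤ (12 * (n : ℤ) - Fr.d i)) = _ :=
    Fr.sum_comp (fun m => dimA (12 * (n : ℤ) - (m : ℤ)))
  rw [e1]
  simp only [smul_eq_mul]
  push_cast
  have a0 := dimA_twelve_sub (d := 0) hn (by norm_num) (by decide)
  have a2 := dimA_twelve_sub (d := 2) hn (by norm_num) (by decide)
  have a4 := dimA_twelve_sub (d := 4) hn (by norm_num) (by decide)
  have a6 := dimA_twelve_sub (d := 6) hn (by norm_num) (by decide)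
  have a8 := dimA_twelve_sub (d := 8) hn (by norm_num) (by decide)
  have a10 := dimA_twelve_sub (d := 10) hn (by norm_num) (by decide)
  norm_num at a0 a2 a4 a6 a8 a10
  norm_num
  rw [a0, a2, a4, a6, a8, a10, h0]
  push_cast
  ring

end Frame

/-- dimension of `M_{12 n}(Γ₀(N))`. -/
theorem finrank_mf_Gamma0_twelve (N : ℕ) [NeZero N] {n : ℕ} (hn : 1 ≤ n) :
    (Module.finrank ℂ (mf (CongruenceSubgroup.Gamma0 N) (12 * n)) : ℚ) =
      n * ModularCurve.dedekindPsi N + 1 - ModularCurve.genusFormula N := by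
  obtain ⟨Fr⟩ := exists_frame_Gamma0 N
  have h1 := Fr.finrank_mf_twelve hn
  have h2 := S20.result N
  have e : CuspForm (CongruenceSubgroup.Gamma0 N) 2 ≃ₗ[ℂ] cf (CongruenceSubgroup.Gamma0 N) 2 :=
    { toFun := fun f => ⟨f, IsCF.of_class f⟩
      map_add' := fun f g => rfl
      map_smul' := fun c f => rfl
      invFun := fun f => f.2.toCuspForm
      left_inv := fun f => rfl
      right_inv := fun f => rfl }
  rw [e.finrank_eq] at h2
  rw [← h2, ← Cosets.card_X]
  exact_mod_cast h1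

end

end Fermat.Agent.Dim
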