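import Fermat.Agent.Dim.Conj

/-! # The number of generators is the index. -/

set_option autoImplicit false

open UpperHalfPlane ModularForm Complex Filter Topology Matrix.SpecialLinearGroup Matrix
open scoped MatrixGroups Manifold

namespace Fermat.Agent.Dim

noncomputable section

open Fermat.Agent.MFLib

set_option linter.unusedSectionVars false

local notation "Δ" => ModularForm.discriminant
local notation "𝕢" => Function.Periodic.qParam

variable {k l : ℤ} {f g : ℍ → ℂ} {Γ : Subgroup SL(2, ℤ)} [Γ.FiniteIndex]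

lemma Gens.g_ne_zero (G : Gens Γ) (j : G.J) : G.g j ≠ 0 := by
  intro h
  have h1 := G.independent (G.d j + 1) (G.d j) (by push_cast; omega) {j} (fun _ => 1)
    (fun i hi => by
      rw [Finset.mem_singleton] at hi
      subst hi
      exact IsMF.one.congr_weight (by ring)) (by simp [h]) j (Finset.mem_singleton_self j)
  have := congrFun h1 UpperHalfPlane.I
  simp at this

lemma Gens.even_d (h1 : -1 ∈ Γ) (G : Gens Γ) (j : G.J) : Even (G.d j) := by
  by_contra h
  rw [Nat.not_even_iff_odd] at h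
  exact G.g_ne_zero j (isMF_odd_weight h1 (by exact_mod_cast h) (G.isMF j))

section

variable {n : ℕ} (hn : 0 < n) (hT : ∀ x : SL(2, ℤ) ⧸ Γ, ModularGroup.T ^ n • x = x)

lemma Vt_sum {ι : Type*} (s : Finset ι) (F : ι → ℍ → ℂ) (z : ℍ) :
    Vt Γ k (∑ i ∈ s, F i) n z = ∑ i ∈ s, Vt Γ k (F i) n z := by
  rw [Vt, V_sum, Matrix.sum_vecMul]
  rfl

lemma Vt_levelOne_mul {e : ℍ → ℂ} (he : IsMF ⊤ l e) (z : ℍ) :
    Vt Γ (l + k) (e * g) n z = e z • Vt Γ k g n z := by
  rw [Vt, V_levelOne_mul he, Matrix.smul_vecMul]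
  rfl

lemma Vt_congr_weight (h : k = l) (z : ℍ) : Vt Γ k f n z = Vt Γ l f n z := by rw [h]

include hn hT in
theorem Gens.limits_indep (h1 : -1 ∈ Γ) (G : Gens Γ) (L : G.J → SL(2, ℤ) ⧸ Γ → ℂ)
    (hL : ∀ j, Tendsto (Vt Γ (G.d j) (G.g j) n) atImInfty (𝓝 (L j))) : LinearIndependent ℂ L := by
  classical
  rw [linearIndependent_iff']
  intro s c hsum
  set K : ℕ := 2 * s.sup G.d + 4 with hK
  have hKd : ∀ j ∈ s, G.d j + 4 ≤ K := fun j hj => by
    have := Finset.le_sup (f := G.d) hj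
    omega
  have hev : ∀ j, Even (G.d j) := G.even_d h1
  have he : ∀ j, ∃ e : ℍ → ℂ, j ∈ s → IsMF ⊤ ((K : ℤ) - G.d j) e ∧ Tendsto e atImInfty (𝓝 1) := by
    intro j
    by_cases hj : j ∈ s
    · have hle := hKd j hj
      obtain ⟨e, he1, he2⟩ := exists_levelOne_tendsto_one (k := K - G.d j) (by omega) (by
        rw [Nat.even_sub (by omega)]
        refine iff_of_true ?_ (hev j)
        rw [hK]
        exact ⟨s.sup G.d + 2, by ring⟩)
      exact ⟨e, fun _ => ⟨he1.congr_weight (by push_cast [Nat.cast_sub (show G.d j ≤ K by omega)]; ring), he2⟩⟩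
    · exact ⟨0, fun h => absurd h hj⟩
  choose e he using he
  set a : G.J → ℍ → ℂ := fun j => c j • e j with ha
  have haMF : ∀ j ∈ s, IsMF ⊤ ((K : ℤ) - G.d j) (a j) := fun j hj => (he j hj).1.smul (c j)
  set h : ℍ → ℂ := ∑ j ∈ s, a j * G.g j with hh
  have hMF : IsMF Γ K h := isMF_sum_mul (d := fun j => (G.d j : ℤ)) G.isMF haMF
  have hVt : ∀ z, Vt Γ K h n z = ∑ j ∈ s, a j z • Vt Γ (G.d j) (G.g j) n z := by
    intro z
    rw [hh, Vt_sum]
    refine Finset.sum_congr rfl fun j hj => ?_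
    rw [← Vt_levelOne_mul (haMF j hj)]
    exact Vt_congr_weight (by ring) z
  have hlim : Tendsto (Vt Γ K h n) atImInfty (𝓝 0) := by
    have h2 : Tendsto (fun z => ∑ j ∈ s, a j z • Vt Γ (G.d j) (G.g j) n z) atImInfty
        (𝓝 (∑ j ∈ s, (c j * 1) • L j)) := by
      refine tendsto_finsetSum _ fun j hj => Tendsto.smul ?_ (hL j)
      exact (he j hj).2.const_mul (c j)
    simp only [mul_one] at h2
    rw [hsum] at h2
    exact h2.congr fun z => (hVt z).symm
  have hr := isMF_div_disc hn hT hMF hlim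
  set r : ℍ → ℂ := h / Δ with hrdef
  obtain ⟨b, hb1, hb2⟩ := G.spanning K ((K : ℤ) - 12) (by omega) r hr
  set t : Finset G.J := s ∪ G.upTo ((K : ℤ) - 12).toNat with ht
  have hst : s ⊆ t := Finset.subset_union_left
  have hb3 := hb2 t Finset.subset_union_right
  have hrh : h = Δ * r := by
    ext z
    rw [Pi.mul_apply, hrdef, Pi.div_apply, mul_div_cancel₀ _ (discriminant_ne_zero z)]
  have hind := G.independent (K + 1) K (by push_cast; omega) t
    (fun j => (if j ∈ s then a j else 0) - Δ * b j) (by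
      intro j _
      refine IsMF.sub ?_ ((isMF_disc.mul (hb1 j)).congr_weight (by ring))
      split_ifs with h
      · exact haMF j h
      · exact IsMF.zero) (by
      have h3 : h = ∑ j ∈ t, (if j ∈ s then a j else 0) * G.g j := by
        rw [hh, ← Finset.sum_subset hst]
        · exact Finset.sum_congr rfl fun j hj => by rw [if_pos hj]
        · intro j _ hj; rw [if_neg hj, zero_mul]
      have h4 : h = ∑ j ∈ t, Δ * b j * G.g j := by
        rw [hrh, hb3, Finset.mul_sum]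
        exact Finset.sum_congr rfl fun j _ => by ring
      have h5 : ∑ j ∈ t, ((if j ∈ s then a j else 0) - Δ * b j) * G.g j = h - h := by
        conv_rhs => rw [h3]
        conv_rhs => rw [← h3]
        simp_rw [sub_mul]
        rw [Finset.sum_sub_distrib, ← h3, ← h4]
      rw [h5, sub_self])
  intro j hj
  have h6 := hind j (hst hj)
  simp only [if_pos hj] at h6
  have h7 : a j = Δ * b j := sub_eq_zero.mp h6
  have h8 : Tendsto (a j) atImInfty (𝓝 (c j * 1)) := (he j hj).2.const_mul (c j)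
  have h9 : Tendsto (Δ * b j) atImInfty (𝓝 (0 * (qExpansion 1 (b j)).coeff 0)) :=
    Tendsto.mul discriminant_isZeroAtImInfty (tendsto_of_coeff_zero (hb1 j))
  rw [← h7] at h9
  have := tendsto_nhds_unique h8 h9
  simpa using this

end

theorem Gens.finite (h1 : -1 ∈ Γ) (G : Gens Γ) : Finite G.J := by
  obtain ⟨n, hn, hT⟩ := exists_width Γ
  choose L hL using fun j => exists_tendsto_Vt hn hT (G.isMF j)
  exact (G.limits_indep hn hT h1 L hL).finite

theorem Gens.card_le (h1 : -1 ∈ Γ) (G : Gens Γ) : Nat.card G.J ≤ Nat.card (SL(2, ℤ) ⧸ Γ) := by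
  have := G.finite h1
  have : Fintype G.J := Fintype.ofFinite _
  obtain ⟨n, hn, hT⟩ := exists_width Γ
  choose L hL using fun j => exists_tendsto_Vt hn hT (G.isMF j)
  have h2 := (G.limits_indep hn hT h1 L hL).fintype_card_le_finrank
  rw [Module.finrank_pi] at h2
  rw [Nat.card_eq_fintype_card, Nat.card_eq_fintype_card]
  convert h2

/-! ### Vandermonde -/

lemma exists_conj_ne {x : ℍ → ℂ} (hx : IsMF Γ l x) (hinj : Function.Injective (MFLib.conj Γ l x)) :
    ∃ z : ℍ, Function.Injective (V Γ l x z) := by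
  classical
  have h1 : (∏ p : {p : (SL(2, ℤ) ⧸ Γ) × (SL(2, ℤ) ⧸ Γ) // p.1 ≠ p.2},
      (MFLib.conj Γ l x p.1.1 - MFLib.conj Γ l x p.1.2)) ≠ 0 := by
    rw [Ne, UpperHalfPlane.prod_eq_zero_iff]
    · rintro ⟨p, -, hp⟩
      exact p.2 (hinj (sub_eq_zero.mp hp))
    · intro p _
      exact (hx.toHB.conj _).holo.sub (hx.toHB.conj _).holo
  obtain ⟨z, hz⟩ := Function.ne_iff.mp h1
  refine ⟨z, fun p q hpq => ?_⟩
  by_contra hne
  apply hz
  rw [Finset.prod_apply]
  refine Finset.prod_eq_zero (Finset.mem_univ ⟨(p, q), hne⟩) ?_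
  rw [Pi.sub_apply]
  exact sub_eq_zero.mpr hpq

/-- no right kernel at a suitable point. -/
lemma Gens.exists_kernel_trivial (G : Gens Γ) {x : ℍ → ℂ} (hx : IsMF Γ 12 x)
    (hinj : Function.Injective (MFLib.conj Γ 12 x)) :
    ∃ z : ℍ, ∀ φ : SL(2, ℤ) ⧸ Γ → ℂ, (∀ j, V Γ (G.d j) (G.g j) z ⬝ᵥ φ = 0) → φ = 0 := by
  classical
  obtain ⟨z, hz⟩ := exists_conj_ne hx hinj
  refine ⟨z, fun φ hφ => ?_⟩
  set μ : ℕ := Fintype.card (SL(2, ℤ) ⧸ Γ) with hμ
  let e : (SL(2, ℤ) ⧸ Γ) ≃ Fin μ := Fintype.equivFin _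
  have h1 : ∀ (k : ℤ) (h : ℍ → ℂ), IsMF Γ k h → V Γ k h z ⬝ᵥ φ = 0 := by
    intro k h hh
    obtain ⟨a, ha1, ha2⟩ := G.spanning (k.toNat + 1) k (by omega) h hh
    have h2 := ha2 _ subset_rfl
    rw [h2, V_sum, sum_dotProduct]
    refine Finset.sum_eq_zero fun j _ => ?_
    have h3 : V Γ k (a j * G.g j) z = a j z • V Γ (G.d j) (G.g j) z := by
      rw [← V_levelOne_mul (ha1 j)]
      congr 1
      ring
    rw [h3, smul_dotProduct, hφ j, smul_zero]
  have h2 : (fun i : Fin μ => φ (e.symm i)) = 0 := by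
    refine Matrix.eq_zero_of_forall_pow_sum_mul_pow_eq_zero
      (f := fun i => V Γ 12 x z (e.symm i)) (hz.comp e.symm.injective) fun m => ?_
    have h3 : IsMF Γ (((μ - 1 - m : ℕ) : ℤ) * 12 + ((m : ℕ) : ℤ) * 12)
        (Δ ^ (μ - 1 - (m : ℕ)) * x ^ (m : ℕ)) :=
      ((isMF_disc.pow _).mono le_top).mul (hx.pow _)
    have h4 := h1 _ _ h3
    rw [V_levelOne_mul (isMF_disc.pow _), smul_dotProduct] at h4
    have h5 : V Γ (((m : ℕ) : ℤ) * 12) (x ^ (m : ℕ)) z ⬝ᵥ φ = 0 := by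
      refine (smul_eq_zero.mp h4).resolve_left ?_
      rw [Pi.pow_apply]
      exact pow_ne_zero _ (discriminant_ne_zero z)
    rw [dotProduct] at h5
    rw [← Equiv.sum_comp e.symm] at h5
    refine Eq.trans (Finset.sum_congr rfl fun i _ => ?_) h5
    have h6 : V Γ (((m : ℕ) : ℤ) * 12) (x ^ (m : ℕ)) z (e.symm i) =
        (V Γ 12 x z (e.symm i)) ^ (m : ℕ) := by
      rw [V, MFLib.conj_pow]; rfl
    rw [h6, mul_comm]
  ext q
  have := congrFun h2 (e q)
  simpa using this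

theorem Gens.le_card (h1 : -1 ∈ Γ) (G : Gens Γ) {x : ℍ → ℂ} (hx : IsMF Γ 12 x)
    (hinj : Function.Injective (MFLib.conj Γ 12 x)) :
    Nat.card (SL(2, ℤ) ⧸ Γ) ≤ Nat.card G.J := by
  have := G.finite h1
  have : Fintype G.J := Fintype.ofFinite _
  obtain ⟨z, hz⟩ := G.exists_kernel_trivial hx hinj
  let A : ((SL(2, ℤ) ⧸ Γ) → ℂ) →ₗ[ℂ] (G.J → ℂ) :=
    Matrix.mulVecLin (Matrix.of fun j => V Γ (G.d j) (G.g j) z)
  have hA : Function.Injective A := by
    rw [injective_iff_map_eq_zero]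
    intro φ hφ
    exact hz φ fun j => congrFun hφ j
  have h2 := LinearMap.finrank_le_finrank_of_injective hA
  rw [Module.finrank_pi, Module.finrank_pi] at h2
  rw [Nat.card_eq_fintype_card, Nat.card_eq_fintype_card]
  convert h2

theorem Gens.card_eq (h1 : -1 ∈ Γ) (G : Gens Γ) {x : ℍ → ℂ} (hx : IsMF Γ 12 x)
    (hinj : Function.Injective (MFLib.conj Γ 12 x)) :
    Nat.card G.J = Nat.card (SL(2, ℤ) ⧸ Γ) :=
  le_antisymm (G.card_le h1) (G.le_card h1 hx hinj)

end

end Fermat.Agent.Dim
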