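import Fermat.Agent.Dim.CuspAux

/-! # The vector of conjugates and its behaviour at infinity. -/

set_option autoImplicit false

open UpperHalfPlane ModularForm Complex Filter Topology Matrix.SpecialLinearGroup Matrix
open scoped MatrixGroups Manifold

namespace Fermat.Agent.Dim

noncomputable section

open Fermat.Agent.MFLib

set_option linter.unusedSectionVars false

local notation "Δ" => ModularForm.discriminant
local notation "𝕢" => Function.Periodic.qParam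

variable {k l : ℤ} {f g : ℍ → ℂ} {Γ : Subgroup SL(2, ℤ)}

lemma mdiff_sum {ι : Type*} (s : Finset ι) (F : ι → ℍ → ℂ) (h : ∀ i ∈ s, MDiff (F i)) :
    MDiff (fun z => ∑ i ∈ s, F i z) := by
  classical
  induction s using Finset.induction_on with
  | empty => simpa using mdifferentiable_const
  | insert i s hi ih =>
    have h1 : (fun z => ∑ j ∈ insert i s, F j z) = fun z => F i z + ∑ j ∈ s, F j z := by
      ext z; rw [Finset.sum_insert hi]
    rw [h1]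
    exact (h i (Finset.mem_insert_self i s)).add
      (ih fun j hj => h j (Finset.mem_insert_of_mem hj))

lemma mdiff_div {u v : ℍ → ℂ} (hu : MDiff u) (hv : MDiff v) (h : ∀ z, v z ≠ 0) :
    MDiff (fun z => u z / v z) := hu.div hv h

lemma mdiff_mul {u v : ℍ → ℂ} (hu : MDiff u) (hv : MDiff v) :
    MDiff (fun z => u z * v z) := hu.mul hv

lemma mdiff_inv {u : ℍ → ℂ} (hu : MDiff u) (h : ∀ z, u z ≠ 0) : MDiff (fun z => (u z)⁻¹) := by
  simpa using mdiff_div (mdifferentiable_const (c := (1 : ℂ))) hu h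

lemma mdiff_pow {u : ℍ → ℂ} (hu : MDiff u) (n : ℕ) : MDiff (fun z => u z ^ n) := hu.pow n

lemma tendsto_vecMul {α ι : Type*} [Fintype ι] {F : Filter α} {v : α → ι → ℂ}
    {M : α → Matrix ι ι ℂ} {L : ι → ℂ} {P : Matrix ι ι ℂ}
    (hv : Tendsto v F (𝓝 L)) (hM : Tendsto M F (𝓝 P)) :
    Tendsto (fun z => v z ᵥ* M z) F (𝓝 (L ᵥ* P)) := by
  rw [tendsto_pi_nhds]
  intro x
  have h1 : ∀ y, Tendsto (fun z => v z y * M z y x) F (𝓝 (L y * P y x)) := fun y =>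
    ((tendsto_pi_nhds.mp hv) y).mul ((tendsto_pi_nhds.mp ((tendsto_pi_nhds.mp hM) y)) x)
  exact tendsto_finsetSum _ fun y _ => h1 y

/-- the vector of conjugates -/
def V (Γ : Subgroup SL(2, ℤ)) (k : ℤ) (f : ℍ → ℂ) (z : ℍ) : SL(2, ℤ) ⧸ Γ → ℂ :=
  fun x => MFLib.conj Γ k f x z

variable [Γ.FiniteIndex]

variable (Γ) in
/-- permutation matrices, acting on row vectors. -/
def perm (γ : SL(2, ℤ)) : Matrix (SL(2, ℤ) ⧸ Γ) (SL(2, ℤ) ⧸ Γ) ℂ :=
  Matrix.of fun y x => if y = γ⁻¹ • x then 1 else 0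

lemma vecMul_perm (v : SL(2, ℤ) ⧸ Γ → ℂ) (γ : SL(2, ℤ)) :
    v ᵥ* perm Γ γ = fun x => v (γ⁻¹ • x) := by
  ext x
  simp [Matrix.vecMul, dotProduct, perm]

lemma perm_mul (γ δ : SL(2, ℤ)) : perm Γ γ * perm Γ δ = perm Γ (δ * γ) := by
  ext y x
  simp [Matrix.mul_apply, perm, mul_smul]

lemma perm_one : perm Γ 1 = 1 := by
  ext y x
  simp [perm, Matrix.one_apply]

lemma perm_pow (γ : SL(2, ℤ)) (n : ℕ) : perm Γ γ ^ n = perm Γ (γ ^ n) := by
  induction n with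
  | zero => rw [pow_zero, pow_zero, perm_one]
  | succ n ih => rw [pow_succ, ih, perm_mul, pow_succ']

lemma trace_perm (γ : SL(2, ℤ)) :
    (perm Γ γ).trace = (Nat.card {x : SL(2, ℤ) ⧸ Γ // γ • x = x} : ℂ) := by
  classical
  rw [Matrix.trace, Nat.card_eq_fintype_card, Fintype.card_subtype]
  simp only [perm, Matrix.diag_apply, Matrix.of_apply]
  rw [Finset.sum_boole]
  congr 2
  ext x
  simp only [Finset.mem_filter, Finset.mem_univ, true_and]
  rw [eq_inv_smul_iff]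

lemma perm_eq_one {γ : SL(2, ℤ)} (h : ∀ x : SL(2, ℤ) ⧸ Γ, γ • x = x) : perm Γ γ = 1 := by
  ext y x
  have : γ⁻¹ • x = x := by rw [inv_smul_eq_iff, h]
  simp [perm, Matrix.one_apply, this]

lemma V_smul (hf : IsMF Γ k f) (γ : SL(2, ℤ)) (z : ℍ) :
    V Γ k f (γ • z) = (denom γ z) ^ k • (V Γ k f z ᵥ* perm Γ γ) := by
  ext x
  have h1 := congrFun (conj_slash hf x γ) z
  rw [SL_slash_apply] at h1
  rw [vecMul_perm, Pi.smul_apply, smul_eq_mul, V, V, ← h1, _root_.zpow_neg]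
  have h2 : denom γ z ^ k ≠ 0 := zpow_ne_zero _ (denom_ne_zero _ _)
  field_simp

lemma V_levelOne_mul {e : ℍ → ℂ} (he : IsMF ⊤ l e) (z : ℍ) :
    V Γ (l + k) (e * g) z = e z • V Γ k g z := by
  ext x
  simp only [V, MFLib.conj]
  rw [mul_slash_SL2, he.slash _ (Subgroup.mem_top _)]
  rfl

lemma V_sum {ι : Type*} (s : Finset ι) (F : ι → ℍ → ℂ) (z : ℍ) :
    V Γ k (∑ i ∈ s, F i) z = ∑ i ∈ s, V Γ k (F i) z := by
  ext x
  rw [Finset.sum_apply]
  simp only [V, MFLib.conj]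
  rw [sum_slash_SL, Finset.sum_apply]

lemma V_smul_const (c : ℂ) (z : ℍ) : V Γ k (c • f) z = c • V Γ k f z := by
  ext x
  simp only [V, MFLib.conj, Pi.smul_apply]
  rw [SL_smul_slash]
  rfl

lemma isBoundedAtImInfty_V (hf : HB k f) (x : SL(2, ℤ) ⧸ Γ) :
    IsBoundedAtImInfty (fun z => V Γ k f z x) := (hf.conj x).bdd_self

lemma mdiff_V (hf : HB k f) (x : SL(2, ℤ) ⧸ Γ) : MDiff (fun z => V Γ k f z x) := (hf.conj x).holo

lemma periodic_of_T_smul {u : ℍ → ℂ} (h : ∀ z, u (ModularGroup.T • z) = u z) :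
    Function.Periodic (u ∘ ofComplex) (1 : ℝ) := by
  have h1 : u ∣[(0 : ℤ)] (ModularGroup.T ^ 1) = u := by
    ext z
    rw [SL_slash_apply, pow_one, neg_zero, zpow_zero, mul_one, h]
  have := periodic_of_slash_T_pow h1
  simpa using this

lemma qParam_T_smul (n : ℕ) (z : ℍ) :
    𝕢 (n : ℝ) (ModularGroup.T • z : ℍ) = zet n * 𝕢 (n : ℝ) z := by
  rw [← qParam_add_one, UpperHalfPlane.modular_T_smul]
  congr 1
  simp [add_comm]

lemma denom_T (z : ℍ) : denom ModularGroup.T z = 1 := by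
  rw [ModularGroup.denom_apply]
  simp [ModularGroup.T]

lemma disc_T_smul (z : ℍ) : Δ (ModularGroup.T • z) = Δ z := by
  have := congrFun (isMF_disc.slash ModularGroup.T (Subgroup.mem_top _)) z
  rwa [SL_slash_apply, denom_T, _root_.one_zpow, mul_one] at this

section cusp

variable {n : ℕ} (hn : 0 < n) (hT : ∀ x : SL(2, ℤ) ⧸ Γ, ModularGroup.T ^ n • x = x)

lemma exists_width (Γ : Subgroup SL(2, ℤ)) [Γ.FiniteIndex] :
    ∃ n : ℕ, 0 < n ∧ ∀ x : SL(2, ℤ) ⧸ Γ, ModularGroup.T ^ n • x = x := by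
  obtain ⟨M, hM, h⟩ := IsMF.exists_T_pow_mem Γ
  refine ⟨M, hM, fun x => ?_⟩
  induction x using QuotientGroup.induction_on with
  | H g =>
    have h1 : ModularGroup.T ^ M • (g : SL(2, ℤ) ⧸ Γ) =
      ((ModularGroup.T ^ M * g : SL(2, ℤ)) : SL(2, ℤ) ⧸ Γ) := rfl
    rw [h1, eq_comm, QuotientGroup.eq]
    have := h g⁻¹
    rwa [inv_inv, mul_assoc] at this

include hT in
lemma permT_pow : perm Γ ModularGroup.T ^ n = 1 := by
  rw [perm_pow, perm_eq_one hT]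

/-- the untwisted vector of conjugates -/
def Vt (Γ : Subgroup SL(2, ℤ)) [Γ.FiniteIndex] (k : ℤ) (f : ℍ → ℂ) (n : ℕ) (z : ℍ) :
    SL(2, ℤ) ⧸ Γ → ℂ := V Γ k f z ᵥ* QI n (perm Γ ModularGroup.T) z

include hn hT in
lemma Vt_T_smul (hf : IsMF Γ k f) (z : ℍ) :
    Vt Γ k f n (ModularGroup.T • z) = Vt Γ k f n z := by
  rw [Vt, Vt, V_smul hf, denom_T, _root_.one_zpow, one_smul, Matrix.vecMul_vecMul,
    R_mul_QI hn (permT_pow hT) (qParam_T_smul n z)]

lemma mdiff_QI (x y : SL(2, ℤ) ⧸ Γ) :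
    MDiff (fun z : ℍ => QI n (perm Γ ModularGroup.T) z x y) := by
  have h1 : (fun z : ℍ => QI n (perm Γ ModularGroup.T) z x y) = fun z : ℍ => ∑ r ∈ Finset.range n,
      ((𝕢 n (z : ℂ)) ^ r)⁻¹ * idem n (perm Γ ModularGroup.T) r x y := by
    ext z
    rw [QI, Matrix.sum_apply]
    rfl
  rw [h1]
  refine mdiff_sum _ _ fun r _ => ?_
  exact mdiff_mul (mdiff_inv (mdiff_pow (mdiff_qParam n) r)
    fun z => pow_ne_zero _ (qParam_ne_zero' _ _)) mdifferentiable_const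

lemma mdiff_Vt (hf : HB k f) (x : SL(2, ℤ) ⧸ Γ) : MDiff (fun z => Vt Γ k f n z x) := by
  have h1 : (fun z => Vt Γ k f n z x) = fun z => ∑ y, V Γ k f z y *
      QI n (perm Γ ModularGroup.T) z y x := by
    ext z; rfl
  rw [h1]
  exact mdiff_sum _ _ fun y _ => (mdiff_V hf y).mul (mdiff_QI y x)

lemma tendsto_bdd_vecMul (hf : HB k f)
    {M : ℍ → Matrix (SL(2, ℤ) ⧸ Γ) (SL(2, ℤ) ⧸ Γ) ℂ} (hM : Tendsto M atImInfty (𝓝 0)) :
    Tendsto (fun z => V Γ k f z ᵥ* M z) atImInfty (𝓝 0) := by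
  rw [tendsto_pi_nhds]
  intro x
  have h1 : (fun z => (V Γ k f z ᵥ* M z) x) = fun z => ∑ y, V Γ k f z y * M z y x := by
    ext z; rfl
  rw [h1]
  have h2 : Tendsto (fun z => ∑ y, V Γ k f z y * M z y x) atImInfty
      (𝓝 (∑ _y : SL(2, ℤ) ⧸ Γ, (0 : ℂ))) := by
    refine tendsto_finsetSum _ fun y _ => ?_
    have h3 : Tendsto (fun z => M z y x) atImInfty (𝓝 0) := by
      have := (tendsto_pi_nhds.mp ((tendsto_pi_nhds.mp hM) y)) x
      simpa using this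
    have h4 : (fun z => V Γ k f z y * M z y x) =o[atImInfty] (fun _ => (1 : ℝ) * 1) :=
      (isBoundedAtImInfty_V hf y).mul_isLittleO ((Asymptotics.isLittleO_one_iff ℝ).mpr h3)
    rw [mul_one] at h4
    exact (Asymptotics.isLittleO_one_iff ℝ).mp h4
  simpa using h2

include hn hT in
lemma exists_tendsto_Vt (hf : IsMF Γ k f) :
    ∃ L : SL(2, ℤ) ⧸ Γ → ℂ, Tendsto (Vt Γ k f n) atImInfty (𝓝 L) := by
  have h0 : ∀ x, ∃ L, Tendsto (fun z => Vt Γ k f n z x) atImInfty (𝓝 L) := by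
    intro x
    refine exists_tendsto_of_periodic (mdiff_Vt hf.toHB x)
      (periodic_of_T_smul fun z => by rw [Vt_T_smul hn hT hf]) ?_
    have h1 : Tendsto (fun z => V Γ k f z ᵥ* (𝕢 1 z • QI n (perm Γ ModularGroup.T) z))
        atImInfty (𝓝 0) :=
      tendsto_bdd_vecMul hf.toHB (tendsto_smul_QI fun r hr =>
        tendsto_qParam_mul (Finset.mem_range.mp hr))
    have h2 := (tendsto_pi_nhds.mp h1) x
    refine h2.congr fun z => ?_
    rw [Matrix.vecMul_smul]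
    rfl
  choose L hL using h0
  exact ⟨L, tendsto_pi_nhds.mpr hL⟩

include hn hT in
lemma V_eq_Vt_QQ (z : ℍ) : V Γ k f z = Vt Γ k f n z ᵥ* QQ n (perm Γ ModularGroup.T) z := by
  rw [Vt, Matrix.vecMul_vecMul, QI_mul_QQ hn (permT_pow hT), Matrix.vecMul_one]

include hn hT in
/-- forms with vanishing leading vector are divisible by `Δ`. -/
lemma isMF_div_disc (hf : IsMF Γ k f) (h0 : Tendsto (Vt Γ k f n) atImInfty (𝓝 0)) :
    IsMF Γ (k - 12) (f / Δ) := by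
  have h1 : ∀ x, ∃ L, Tendsto (fun z => Vt Γ k f n z x / Δ z) atImInfty (𝓝 L) := by
    intro x
    refine exists_tendsto_of_periodic
      (mdiff_div (mdiff_Vt hf.toHB x) isMF_disc.holo discriminant_ne_zero)
      (periodic_of_T_smul fun z => ?_) ?_
    · rw [Vt_T_smul hn hT hf, disc_T_smul]
    · have h2 : Tendsto (fun z => Vt Γ k f n z x * (𝕢 1 z / Δ z)) atImInfty (𝓝 (0 * 1)) :=
        ((tendsto_pi_nhds.mp h0) x).mul tendsto_div_disc
      rw [zero_mul] at h2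
      refine h2.congr fun z => ?_
      generalize Vt Γ k f n z x = v
      ring
  choose L hL using h1
  have h3 : Tendsto (fun z => (Δ z)⁻¹ • Vt Γ k f n z) atImInfty (𝓝 L) := by
    refine tendsto_pi_nhds.mpr fun x => (hL x).congr fun z => ?_
    simp [div_eq_inv_mul]
  have h4 := tendsto_vecMul h3 (tendsto_QQ (R := perm Γ ModularGroup.T) hn)
  refine ⟨⟨hf.holo.div isMF_disc.holo discriminant_ne_zero, fun γ => ?_⟩, fun γ hγ => ?_⟩
  · have h5 : (f / Δ) ∣[k - 12] γ = fun z => ((Δ z)⁻¹ • V Γ k f z)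
        ((γ⁻¹ : SL(2, ℤ)) : SL(2, ℤ) ⧸ Γ) := by
      rw [div_slash_SL2, disc_slash_twelve]
      ext z
      rw [Pi.div_apply, Pi.smul_apply, V, conj_mk hf, inv_inv, smul_eq_mul, div_eq_inv_mul]
    rw [h5]
    have h6 := (tendsto_pi_nhds.mp h4) ((γ⁻¹ : SL(2, ℤ)) : SL(2, ℤ) ⧸ Γ)
    have h7 : (fun z => ((Δ z)⁻¹ • V Γ k f z) ((γ⁻¹ : SL(2, ℤ)) : SL(2, ℤ) ⧸ Γ)) =
        fun z => (((Δ z)⁻¹ • Vt Γ k f n z) ᵥ* QQ n (perm Γ ModularGroup.T) z)
          ((γ⁻¹ : SL(2, ℤ)) : SL(2, ℤ) ⧸ Γ) := by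
      ext z
      rw [Matrix.smul_vecMul, ← V_eq_Vt_QQ hn hT]
    rw [h7]
    exact h6.isBigO_one ℝ
  · rw [div_slash_SL2, hf.slash γ hγ, disc_slash_twelve]

end cusp

end

end Fermat.Agent.Dim
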