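import Fermat.Agent.Dim.Dual

/-! # Dimension formulas in terms of a frame. -/

set_option autoImplicit false

open UpperHalfPlane ModularForm Complex Filter Topology Matrix.SpecialLinearGroup Matrix
open scoped MatrixGroups Manifold

namespace Fermat.Agent.Dim

noncomputable section

open Fermat.Agent.MFLib

set_option linter.unusedSectionVars false

local notation "Δ" => ModularForm.discriminant

variable {k l w : ℤ} {f g : ℍ → ℂ}

lemma isCF_zero {Γ : Subgroup SL(2, ℤ)} : IsCF Γ k 0 where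
  toIsMF := IsMF.zero
  zero_cusps γ := by
    rw [SlashAction.zero_slash]
    exact (tendsto_const_nhds : Tendsto (fun _ : ℍ => (0 : ℂ)) atImInfty (𝓝 0))

lemma isCF_add {Γ : Subgroup SL(2, ℤ)} (hf : IsCF Γ k f) (hg : IsCF Γ k g) : IsCF Γ k (f + g) where
  toIsMF := hf.toIsMF.add hg.toIsMF
  zero_cusps γ := by
    rw [SlashAction.add_slash]
    exact ZeroAtFilter.add (hf.zero_cusps γ) (hg.zero_cusps γ)

lemma isCF_smul {Γ : Subgroup SL(2, ℤ)} (c : ℂ) (hf : IsCF Γ k f) : IsCF Γ k (c • f) where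
  toIsMF := hf.toIsMF.smul c
  zero_cusps γ := by
    rw [SL_smul_slash]
    have := (hf.zero_cusps γ)
    have h2 : Tendsto (fun z => c • (f ∣[k] γ) z) atImInfty (𝓝 (c • 0)) :=
      Tendsto.const_smul this c
    rw [smul_zero] at h2
    exact h2

/-- the vector space of (function-level) cusp forms -/
def cf (Γ : Subgroup SL(2, ℤ)) (k : ℤ) : Submodule ℂ (ℍ → ℂ) where
  carrier := {f | IsCF Γ k f}
  add_mem' h1 h2 := isCF_add h1 h2
  zero_mem' := isCF_zero
  smul_mem' c _ h := isCF_smul c h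

/-- product with a bounded form -/
lemma isCF_mul {Γ : Subgroup SL(2, ℤ)} (hf : IsMF Γ l f) (hg : IsCF Γ k g) : IsCF Γ (l + k) (f * g) where
  toIsMF := hf.mul hg.toIsMF
  zero_cusps γ := by
    rw [mul_slash_SL2]
    have h4 : (fun z => (f ∣[l] γ) z * (g ∣[k] γ) z) =o[atImInfty] (fun _ => (1 : ℝ) * 1) :=
      (hf.bdd γ).mul_isLittleO ((Asymptotics.isLittleO_one_iff ℝ).mpr (hg.zero_cusps γ))
    rw [mul_one] at h4
    exact (Asymptotics.isLittleO_one_iff ℝ).mp h4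

lemma isCF_sum {Γ : Subgroup SL(2, ℤ)} {ι : Type*} (s : Finset ι) (F : ι → ℍ → ℂ)
    (h : ∀ i ∈ s, IsCF Γ k (F i)) : IsCF Γ k (∑ i ∈ s, F i) :=
  (cf Γ k).sum_mem h

namespace Frame

variable {Γ : Subgroup SL(2, ℤ)} [Γ.FiniteIndex] (Fr : Frame Γ)

/-- coordinates of modular forms -/
def mfMap (w : ℤ) : (∀ i, mf ⊤ (w - Fr.d i)) →ₗ[ℂ] mf Γ w where
  toFun a := ⟨∑ i, (a i : ℍ → ℂ) * Fr.g i,
    isMF_sum_mul (d := fun i => (Fr.d i : ℤ)) Fr.isMF fun i _ => (a i).2⟩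
  map_add' a b := by
    ext z
    simp [Finset.sum_apply, add_mul, Finset.sum_add_distrib]
  map_smul' c a := by
    ext z
    simp [Finset.sum_apply, Finset.mul_sum]

lemma mfMap_bijective (w : ℤ) : Function.Bijective (Fr.mfMap w) := by
  constructor
  · rw [injective_iff_map_eq_zero]
    intro a ha
    have h1 := Fr.indep w (fun i => a i) (fun i => (a i).2) (congrArg Subtype.val ha)
    ext i : 2
    exact h1 i
  · rintro ⟨f, hf⟩
    obtain ⟨a, ha1, ha2⟩ := Fr.span w f hf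
    exact ⟨fun i => ⟨a i, ha1 i⟩, Subtype.ext ha2.symm⟩

lemma finrank_mf (w : ℤ) : Module.finrank ℂ (mf Γ w) = ∑ i, Module.finrank ℂ (mf ⊤ (w - Fr.d i)) := by
  rw [← (LinearEquiv.ofBijective _ (Fr.mfMap_bijective w)).finrank_eq, Module.finrank_pi_fintype]

/-- coordinates of cusp forms -/
def cfMap (w : ℤ) : (∀ i, mf ⊤ (w - 12 + Fr.d i)) →ₗ[ℂ] cf Γ w where
  toFun a := ⟨∑ i, (a i : ℍ → ℂ) * Fr.dual i, isCF_sum _ _ fun i _ => by
    have h1 := isCF_mul ((a i).2.mono le_top) (Fr.isCF_dual i)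
    have h2 : w - 12 + Fr.d i + (12 - Fr.d i) = w := by ring
    rwa [h2] at h1⟩
  map_add' a b := by
    ext z
    simp [Finset.sum_apply, add_mul, Finset.sum_add_distrib]
  map_smul' c a := by
    ext z
    simp [Finset.sum_apply, Finset.mul_sum]

lemma cfMap_bijective (w : ℤ) : Function.Bijective (Fr.cfMap w) := by
  constructor
  · rw [injective_iff_map_eq_zero]
    intro a ha
    have h1 := Fr.cusp_indep (w := w) (h := fun i => a i) (fun i => (a i).2) (congrArg Subtype.val ha)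
    ext i : 2
    exact h1 i
  · rintro ⟨f, hf⟩
    obtain ⟨a, ha1, ha2⟩ := Fr.cusp_span hf
    exact ⟨fun i => ⟨a i, ha1 i⟩, Subtype.ext ha2.symm⟩

lemma finrank_cf (w : ℤ) :
    Module.finrank ℂ (cf Γ w) = ∑ i, Module.finrank ℂ (mf ⊤ (w - 12 + Fr.d i)) := by
  rw [← (LinearEquiv.ofBijective _ (Fr.cfMap_bijective w)).finrank_eq, Module.finrank_pi_fintype]

end Frame

/-! ### level one dimensions -/

lemma A_neg {m : ℤ} (hm : m < 0) : Module.finrank ℂ (mf ⊤ m) = 0 := by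
  have : Subsingleton (mf ⊤ m) := ⟨fun a b => Subtype.ext (by
    rw [levelOne_neg hm a.2, levelOne_neg hm b.2])⟩
  exact Module.finrank_zero_of_subsingleton

lemma A_even (m : ℕ) (hm : Even m) :
    Module.finrank ℂ (mf ⊤ (m : ℤ)) = if m % 12 = 2 then m / 12 else m / 12 + 1 := by
  have h := (mfTopEquiv m).finrank_eq
  rw [h, Module.finrank, ModularForm.dimension_level_one m hm]
  by_cases h2 : m % 12 = 2
  · rw [if_pos h2, if_pos (show m ≡ 2 [MOD 12] from h2), Cardinal.toNat_natCast]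
  · rw [if_neg h2, if_neg (show ¬ m ≡ 2 [MOD 12] from h2), Cardinal.toNat_natCast]

section cusps

variable {Γ : Subgroup SL(2, ℤ)} [Γ.FiniteIndex] (Fr : Frame Γ)

lemma exists_tendsto_V (hf : IsMF Γ k f) : ∃ v, Tendsto (V Γ k f) atImInfty (𝓝 v) := by
  obtain ⟨n, hn, hT⟩ := exists_width Γ
  obtain ⟨L, hL⟩ := exists_tendsto_Vt hn hT hf
  have h1 := tendsto_vecMul hL (tendsto_QQ (R := perm Γ ModularGroup.T) hn)
  exact ⟨_, h1.congr fun z => (V_eq_Vt_QQ hn hT z).symm⟩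

/-- evaluation at the cusps -/
def ev (Γ : Subgroup SL(2, ℤ)) [Γ.FiniteIndex] (w : ℤ) : mf Γ w →ₗ[ℂ] (SL(2, ℤ) ⧸ Γ → ℂ) where
  toFun f := limUnder atImInfty (V Γ w f)
  map_add' f g := by
    obtain ⟨u, hu⟩ := exists_tendsto_V f.2
    obtain ⟨v, hv⟩ := exists_tendsto_V g.2
    rw [hu.limUnder_eq, hv.limUnder_eq]
    refine Tendsto.limUnder_eq ((hu.add hv).congr fun z => ?_)
    ext x
    simp only [Submodule.coe_add, V, MFLib.conj, Pi.add_apply]
    rw [SlashAction.add_slash]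
    rfl
  map_smul' c f := by
    obtain ⟨u, hu⟩ := exists_tendsto_V f.2
    rw [hu.limUnder_eq]
    refine Tendsto.limUnder_eq ((hu.const_smul c).congr fun z => ?_)
    rw [Submodule.coe_smul, V_smul_const]

lemma ev_eq {f : mf Γ w} {v : SL(2, ℤ) ⧸ Γ → ℂ} (h : Tendsto (V Γ w f) atImInfty (𝓝 v)) :
    ev Γ w f = v := h.limUnder_eq

lemma tendsto_ev (f : mf Γ w) : Tendsto (V Γ w f) atImInfty (𝓝 (ev Γ w f)) := by
  obtain ⟨v, hv⟩ := exists_tendsto_V f.2
  rwa [ev_eq hv]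

/-- the kernel of evaluation at cusps -/
def kerEvEquiv (Γ : Subgroup SL(2, ℤ)) [Γ.FiniteIndex] (w : ℤ) :
    LinearMap.ker (ev Γ w) ≃ₗ[ℂ] cf Γ w where
  toFun f := ⟨f.1.1, by
    have h1 := tendsto_ev f.1
    rw [LinearMap.mem_ker.mp f.2] at h1
    refine ⟨f.1.2, fun γ => ?_⟩
    have h2 := (tendsto_pi_nhds.mp h1) ((γ⁻¹ : SL(2, ℤ)) : SL(2, ℤ) ⧸ Γ)
    simp only [V] at h2
    rw [conj_mk f.1.2, inv_inv] at h2
    exact h2⟩
  map_add' f g := rfl
  map_smul' c f := rfl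
  invFun f := ⟨⟨f.1, f.2.toIsMF⟩, by
    rw [LinearMap.mem_ker]
    refine ev_eq (tendsto_pi_nhds.mpr fun x => ?_)
    exact f.2.zero_cusps _⟩
  left_inv f := rfl
  right_inv f := rfl

/-- invariant vectors -/
def Inv (Γ : Subgroup SL(2, ℤ)) [Γ.FiniteIndex] : Submodule ℂ (SL(2, ℤ) ⧸ Γ → ℂ) where
  carrier := {v | ∀ x, v (ModularGroup.T⁻¹ • x) = v x}
  add_mem' h1 h2 x := by simp [h1 x, h2 x]
  zero_mem' x := rfl
  smul_mem' c v h x := by simp [h x]

lemma mem_Inv {v : SL(2, ℤ) ⧸ Γ → ℂ} : v ∈ Inv Γ ↔ v ᵥ* perm Γ ModularGroup.T = v := by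
  rw [vecMul_perm]
  exact ⟨fun h => funext h, fun h x => congrFun h x⟩

lemma vecMul_idem {n : ℕ} (hn : 0 < n) {v : SL(2, ℤ) ⧸ Γ → ℂ} (hv : v ∈ Inv Γ) :
    v ᵥ* idem n (perm Γ ModularGroup.T) 0 = v := by
  have h1 : ∀ j, v ᵥ* (perm Γ ModularGroup.T) ^ j = v := by
    intro j
    induction j with
    | zero => rw [pow_zero, Matrix.vecMul_one]
    | succ j ih => rw [pow_succ, ← Matrix.vecMul_vecMul, ih, mem_Inv.mp hv]
  rw [idem, Matrix.vecMul_smul, Matrix.vecMul_sum]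
  simp only [mul_zero, pow_zero, inv_one, one_smul, h1, Finset.sum_const, Finset.card_range]
  rw [← Nat.cast_smul_eq_nsmul ℂ, smul_smul, inv_mul_cancel₀ (by exact_mod_cast hn.ne'), one_smul]

lemma range_ev_le : LinearMap.range (ev Γ w) ≤ Inv Γ := by
  rintro _ ⟨f, rfl⟩
  rw [mem_Inv]
  have h1 := tendsto_ev f
  have h2 : Tendsto (fun z : ℍ => ModularGroup.T • z) atImInfty atImInfty := by
    rw [UpperHalfPlane.atImInfty, tendsto_comap_iff]
    refine tendsto_comap.congr fun z => ?_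
    rw [Function.comp_apply, UpperHalfPlane.modular_T_smul]
    simp
  have h3 := h1.comp h2
  have h4 : Tendsto (fun z => V Γ w f z ᵥ* perm Γ ModularGroup.T) atImInfty
      (𝓝 (ev Γ w f ᵥ* perm Γ ModularGroup.T)) := tendsto_vecMul h1 tendsto_const_nhds
  refine tendsto_nhds_unique h4 (h3.congr fun z => ?_)
  rw [Function.comp_apply, V_smul f.2, denom_T, _root_.one_zpow, one_smul]

include Fr in
lemma range_ev (hw : 16 ≤ w) (hev : Even w) : LinearMap.range (ev Γ w) = Inv Γ := by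
  refine le_antisymm range_ev_le fun v hv => ?_
  obtain ⟨n, hn, hT⟩ := exists_width Γ
  obtain ⟨L, hL1, hL2⟩ := Fr.lim n hn hT
  obtain ⟨W, rfl⟩ := Int.eq_ofNat_of_zero_le (show 0 ≤ w by omega)
  have hev' : Even W := by exact_mod_cast hev
  have he : ∀ i, ∃ e : ℍ → ℂ, IsMF ⊤ ((W : ℤ) - Fr.d i) e ∧ Tendsto e atImInfty (𝓝 1) := by
    intro i
    have h1 := Fr.d_lt i
    obtain ⟨e, he1, he2⟩ := exists_levelOne_tendsto_one (k := W - Fr.d i) (by omega) (by
      rw [Nat.even_sub (by omega)]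
      exact iff_of_true hev' (Fr.even i))
    exact ⟨e, he1.congr_weight (by push_cast [Nat.cast_sub (show Fr.d i ≤ W by omega)]; ring), he2⟩
  choose e he1 he2 using he
  set c : SL(2, ℤ) ⧸ Γ → ℂ := v ᵥ* L⁻¹ with hc
  have hcL : c ᵥ* L = v := by
    rw [hc, Matrix.vecMul_vecMul, Matrix.nonsing_inv_mul _ ((Matrix.isUnit_iff_isUnit_det _).mp hL1),
      Matrix.vecMul_one]
  set h : ℍ → ℂ := ∑ i, (c i • e i) * Fr.g i with hh
  have hMF : IsMF Γ W h := isMF_sum_mul (d := fun i => (Fr.d i : ℤ)) Fr.isMF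
    fun i _ => (he1 i).smul (c i)
  refine ⟨⟨h, hMF⟩, ev_eq ?_⟩
  have h1 : ∀ z, Vt Γ W h n z = ∑ i, (c i • e i) z • Vt Γ (Fr.d i) (Fr.g i) n z := by
    intro z
    rw [hh, Vt_sum]
    refine Finset.sum_congr rfl fun i _ => ?_
    rw [← Vt_levelOne_mul ((he1 i).smul (c i))]
    exact Vt_congr_weight (by ring) z
  have h2 : Tendsto (Vt Γ W h n) atImInfty (𝓝 v) := by
    have h3 : Tendsto (fun z => ∑ i, (c i • e i) z • Vt Γ (Fr.d i) (Fr.g i) n z) atImInfty
        (𝓝 (∑ i, (c i * 1) • L i)) := by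
      refine tendsto_finsetSum _ fun i _ => Tendsto.smul ?_ (hL2 i)
      exact (he2 i).const_mul (c i)
    have h4 : ∑ i, (c i * 1) • L i = v := by
      rw [← hcL]
      ext x
      simp [Matrix.vecMul, dotProduct, Finset.sum_apply]
    rw [h4] at h3
    exact h3.congr fun z => (h1 z).symm
  have h5 := tendsto_vecMul h2 (tendsto_QQ (R := perm Γ ModularGroup.T) hn)
  rw [vecMul_idem hn hv] at h5
  exact h5.congr fun z => (V_eq_Vt_QQ hn hT z).symm

/-- functions on `T`-orbits -/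
def invEquiv (Γ : Subgroup SL(2, ℤ)) [Γ.FiniteIndex] :
    (MulAction.orbitRel.Quotient (Subgroup.zpowers ModularGroup.T) (SL(2, ℤ) ⧸ Γ) → ℂ) ≃ₗ[ℂ]
      Inv Γ where
  toFun φ := ⟨fun x => φ (Quotient.mk'' x), fun x => congrArg φ (Quotient.eq''.mpr
    ⟨⟨ModularGroup.T⁻¹, Subgroup.inv_mem _ (Subgroup.mem_zpowers _)⟩, rfl⟩)⟩
  map_add' φ ψ := rfl
  map_smul' c φ := rfl
  invFun v := fun o => Quotient.liftOn' o v.1 (by
    intro a b hab
    obtain ⟨⟨γ, m, rfl⟩, hm⟩ := hab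
    rw [← hm]
    have h1 : ∀ (m : ℤ) (x : SL(2, ℤ) ⧸ Γ), v.1 (ModularGroup.T ^ m • x) = v.1 x := by
      intro m
      induction m using Int.induction_on with
      | zero => intro x; simp
      | succ i ih =>
        intro x
        have h2 := v.2 (ModularGroup.T ^ ((i : ℤ) + 1) • x)
        rw [← h2, ← mul_smul]
        have : ModularGroup.T⁻¹ * ModularGroup.T ^ ((i : ℤ) + 1) = ModularGroup.T ^ (i : ℤ) := by
          rw [_root_.zpow_add, zpow_one, ← mul_assoc]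
          group
        rw [this, ih]
      | pred i ih =>
        intro x
        have h2 := v.2 (ModularGroup.T ^ (-(i : ℤ)) • x)
        rw [← mul_smul] at h2
        have : ModularGroup.T⁻¹ * ModularGroup.T ^ (-(i : ℤ)) = ModularGroup.T ^ (-(i : ℤ) - 1) := by
          rw [_root_.zpow_sub]
          group
        rw [this] at h2
        rw [h2, ih]
    exact h1 m b)
  left_inv φ := by
    ext o
    induction o using Quotient.inductionOn' with
    | h x => rfl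
  right_inv v := rfl

lemma finrank_Inv : Module.finrank ℂ (Inv Γ) =
    Nat.card (MulAction.orbitRel.Quotient (Subgroup.zpowers ModularGroup.T) (SL(2, ℤ) ⧸ Γ)) := by
  have : Finite (MulAction.orbitRel.Quotient (Subgroup.zpowers ModularGroup.T) (SL(2, ℤ) ⧸ Γ)) :=
    Quotient.finite _
  have : Fintype (MulAction.orbitRel.Quotient (Subgroup.zpowers ModularGroup.T) (SL(2, ℤ) ⧸ Γ)) :=
    Fintype.ofFinite _
  rw [← (invEquiv Γ).finrank_eq, Module.finrank_pi, Nat.card_eq_fintype_card]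

include Fr in
theorem finrank_mf_eq [Module.Finite ℂ (mf Γ w)] (hw : 16 ≤ w) (hev : Even w) :
    Module.finrank ℂ (mf Γ w) = Module.finrank ℂ (cf Γ w) +
      Nat.card (MulAction.orbitRel.Quotient (Subgroup.zpowers ModularGroup.T) (SL(2, ℤ) ⧸ Γ)) := by
  rw [← finrank_Inv, ← range_ev Fr hw hev, ← (kerEvEquiv Γ w).finrank_eq, add_comm]
  exact (LinearMap.finrank_range_add_finrank_ker (ev Γ w)).symm

end cusps

end

end Fermat.Agent.Dim
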