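import Fermat.Agent.Dim.FreeThm
import Fermat.Agent.MFLib.Cusp

/-! # Growth at infinity, roots of unity idempotents. -/

set_option autoImplicit false

open UpperHalfPlane ModularForm Complex Filter Topology Matrix.SpecialLinearGroup
open scoped MatrixGroups Manifold

namespace Fermat.Agent.Dim

noncomputable section

open Fermat.Agent.MFLib

local notation "Δ" => ModularForm.discriminant
local notation "𝕢" => Function.Periodic.qParam

variable {k l : ℤ} {f g : ℍ → ℂ} {Γ : Subgroup SL(2, ℤ)}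

lemma mdiff_qParam (n : ℝ) : MDiff (fun z : ℍ => 𝕢 n z) := by
  rw [UpperHalfPlane.mdifferentiable_iff]
  have h1 : DifferentiableOn ℂ (fun z : ℂ => 𝕢 n z) {z | 0 < z.im} :=
    (Function.Periodic.differentiable_qParam).differentiableOn
  refine h1.congr fun z hz => ?_
  simp only [Function.comp_apply]
  rw [ofComplex_apply_of_im_pos hz]

lemma qParam_ne_zero' (n : ℝ) (z : ℂ) : 𝕢 n z ≠ 0 := Complex.exp_ne_zero _

lemma tendsto_qParam_nhdsNE {n : ℝ} (hn : 0 < n) :
    Tendsto (fun z : ℍ => 𝕢 n z) atImInfty (𝓝[≠] 0) :=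
  tendsto_nhdsWithin_iff.mpr ⟨UpperHalfPlane.qParam_tendsto_atImInfty hn,
    Eventually.of_forall fun z => qParam_ne_zero' n z⟩

/-- the standard primitive `n`-th root of unity -/
def zet (n : ℕ) : ℂ := Complex.exp (2 * Real.pi * Complex.I / n)

lemma isPrimitiveRoot_zet {n : ℕ} (hn : 0 < n) : IsPrimitiveRoot (zet n) n :=
  Complex.isPrimitiveRoot_exp n hn.ne'

lemma zet_ne_zero (n : ℕ) : zet n ≠ 0 := Complex.exp_ne_zero _

lemma zet_one : zet 1 = 1 := by
  have := (isPrimitiveRoot_zet one_pos).pow_eq_one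
  simpa using this

lemma qParam_add_one (n : ℕ) (z : ℂ) : 𝕢 (n : ℝ) (z + 1) = zet n * 𝕢 (n : ℝ) z := by
  rw [zet, Function.Periodic.qParam, Function.Periodic.qParam, ← Complex.exp_add]
  congr 1
  push_cast
  ring

/-- removable singularity at infinity. -/
lemma exists_tendsto_of_periodic {u : ℍ → ℂ} (hu : MDiff u)
    (hper : Function.Periodic (u ∘ ofComplex) (1 : ℝ))
    (h0 : Tendsto (fun z : ℍ => 𝕢 1 z * u z) atImInfty (𝓝 0)) :
    ∃ L, Tendsto u atImInfty (𝓝 L) := by
  set w : ℍ → ℂ := fun z => 𝕢 1 z * u z with hw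
  have hwm : MDiff w := (mdiff_qParam 1).mul hu
  have hz : IsZeroAtImInfty w := h0
  have hwper : Function.Periodic (w ∘ ofComplex) (1 : ℝ) := by
    intro x
    by_cases hx : 0 < x.im
    · have hx1 : 0 < (x + (1 : ℝ)).im := by simpa using hx
      have h1 := hper x
      simp only [Function.comp_apply] at h1 ⊢
      rw [hw]
      simp only
      rw [h1, ofComplex_apply_of_im_pos hx1, ofComplex_apply_of_im_pos hx]
      congr 1
      have := qParam_add_one 1 x
      simpa [zet_one] using this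
    · have hx1 : (x + (1 : ℝ)).im ≤ 0 := by simpa using hx
      simp only [Function.comp_apply]
      rw [ofComplex_apply_of_im_nonpos hx1, ofComplex_apply_of_im_nonpos (not_lt.mp hx)]
  have hwb : IsBoundedAtImInfty w := hz.isBoundedAtImInfty
  have han : AnalyticAt ℂ (cuspFunction 1 w) 0 :=
    UpperHalfPlane.analyticAt_cuspFunction_zero one_pos hwper hwm hwb
  have hv0 : cuspFunction 1 w 0 = 0 :=
    Function.Periodic.cuspFunction_zero_of_zero_at_inf one_pos hz.zero_at_infty_comp_ofComplex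
  have hd := han.differentiableAt.hasDerivAt.tendsto_slope_zero
  refine ⟨_, (hd.comp (tendsto_qParam_nhdsNE one_pos)).congr fun z => ?_⟩
  simp only [Function.comp_apply, zero_add, hv0, sub_zero, smul_eq_mul]
  have h2 : w z = cuspFunction 1 w (𝕢 1 z) := (eq_cuspFunction z one_ne_zero hwper).symm
  rw [← h2, hw]
  simp only
  rw [inv_mul_cancel_left₀ (qParam_ne_zero' 1 z)]

section idem

variable {A : Type*} [Ring A] [Algebra ℂ A] (n : ℕ) (R : A)

/-- the idempotent attached to the eigenvalue `ζ ^ r` of `R`. -/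
def idem (r : ℕ) : A := (n : ℂ)⁻¹ • ∑ j ∈ Finset.range n, (zet n ^ (j * r))⁻¹ • R ^ j

variable {n R}

lemma geom_zero {w : ℂ} (h1 : w ^ n = 1) (h2 : w ≠ 1) : ∑ j ∈ Finset.range n, w ^ j = 0 := by
  have := geom_sum_mul w n
  rw [h1, sub_self] at this
  exact (mul_eq_zero.mp this).resolve_right (sub_ne_zero.mpr h2)

lemma R_mul_idem (hn : 0 < n) (hR : R ^ n = 1) (r : ℕ) : R * idem n R r = zet n ^ r • idem n R r := by
  have hz := isPrimitiveRoot_zet hn
  rw [idem, mul_smul_comm, smul_comm (zet n ^ r)]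
  congr 1
  rw [Finset.mul_sum, Finset.smul_sum]
  set F : ℕ → A := fun j => (zet n ^ (j * r))⁻¹ • R ^ j with hF
  have h1 : ∀ j, R * F j = zet n ^ r • F (j + 1) := by
    intro j
    simp only [hF]
    rw [mul_smul_comm, smul_smul, ← pow_succ']
    congr 1
    have := pow_ne_zero (j * r) (zet_ne_zero n)
    have h3 := pow_ne_zero r (zet_ne_zero n)
    rw [add_mul, one_mul, pow_add]
    field_simp
  have h2 : F n = F 0 := by
    simp only [hF]
    rw [pow_mul, hz.pow_eq_one, hR]
    simp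
  calc ∑ j ∈ Finset.range n, R * F j = ∑ j ∈ Finset.range n, zet n ^ r • F (j + 1) :=
        Finset.sum_congr rfl fun j _ => h1 j
    _ = zet n ^ r • ∑ j ∈ Finset.range n, F (j + 1) := by rw [Finset.smul_sum]
    _ = zet n ^ r • ∑ j ∈ Finset.range n, F j := by
        congr 1
        have h3 := Finset.sum_range_succ F n
        have h4 := Finset.sum_range_succ' F n
        rw [h3, h2] at h4
        exact (add_right_cancel h4).symm
    _ = _ := by rw [Finset.smul_sum]

lemma R_pow_mul_idem (hn : 0 < n) (hR : R ^ n = 1) (r j : ℕ) :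
    R ^ j * idem n R r = zet n ^ (r * j) • idem n R r := by
  induction j with
  | zero => simp
  | succ j ih =>
    rw [pow_succ', mul_assoc, ih, mul_smul_comm, R_mul_idem hn hR, smul_smul, ← pow_add]
    congr 2

lemma sum_idem (hn : 0 < n) : ∑ r ∈ Finset.range n, idem n R r = 1 := by
  have hz := isPrimitiveRoot_zet hn
  simp only [idem]
  rw [← Finset.smul_sum, Finset.sum_comm]
  have h1 : ∀ j ∈ Finset.range n, ∑ r ∈ Finset.range n, (zet n ^ (j * r))⁻¹ • R ^ j =
      if j = 0 then (n : ℂ) • (1 : A) else 0 := by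
    intro j hj
    rw [← Finset.sum_smul]
    split_ifs with h
    · subst h; simp
    · have h2 : ∑ r ∈ Finset.range n, (zet n ^ (j * r))⁻¹ = 0 := by
        have h3 : ∀ r ∈ Finset.range n, (zet n ^ (j * r))⁻¹ = ((zet n ^ j)⁻¹) ^ r := by
          intro r _
          rw [pow_mul, inv_pow]
        rw [Finset.sum_congr rfl h3]
        apply geom_zero
        · rw [inv_pow, ← pow_mul, mul_comm, pow_mul, hz.pow_eq_one, one_pow, inv_one]
        · rw [Ne, inv_eq_one]
          exact hz.pow_ne_one_of_pos_of_lt h (Finset.mem_range.mp hj)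
      rw [h2, zero_smul]
  rw [Finset.sum_congr rfl h1, Finset.sum_ite_eq']
  rw [if_pos (Finset.mem_range.mpr hn), smul_smul, inv_mul_cancel₀ (by exact_mod_cast hn.ne'),
    one_smul]

lemma idem_mul_idem (hn : 0 < n) (hR : R ^ n = 1) {r s : ℕ} (hr : r < n) (hs : s < n) :
    idem n R s * idem n R r = if r = s then idem n R r else 0 := by
  have hz := isPrimitiveRoot_zet hn
  conv_lhs => rw [idem]
  rw [smul_mul_assoc, Finset.sum_mul]
  have h1 : ∀ j ∈ Finset.range n, (zet n ^ (j * s))⁻¹ • R ^ j * idem n R r =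
      (zet n ^ r * (zet n ^ s)⁻¹) ^ j • idem n R r := by
    intro j _
    rw [smul_mul_assoc, R_pow_mul_idem hn hR, smul_smul]
    congr 1
    rw [mul_pow, inv_pow, ← pow_mul, ← pow_mul, mul_comm j s, mul_comm]
  rw [Finset.sum_congr rfl h1, ← Finset.sum_smul]
  split_ifs with h
  · subst h
    rw [mul_inv_cancel₀ (pow_ne_zero _ (zet_ne_zero n))]
    simp only [one_pow, Finset.sum_const, Finset.card_range, nsmul_eq_mul, mul_one]
    rw [smul_smul, inv_mul_cancel₀ (by exact_mod_cast hn.ne'), one_smul]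
  · rw [geom_zero, zero_smul, smul_zero]
    · rw [mul_pow, inv_pow, ← pow_mul, ← pow_mul, mul_comm r, mul_comm s, pow_mul, pow_mul,
        hz.pow_eq_one, one_pow, one_pow, inv_one, mul_one]
    · intro h2
      have h3 : zet n ^ r = zet n ^ s := by
        have h4 := pow_ne_zero s (zet_ne_zero n)
        field_simp at h2
        exact h2
      exact h (hz.pow_inj hr hs h3)

variable (n R)

/-- the untwisting matrix and its inverse -/
def QQ (z : ℍ) : A := ∑ r ∈ Finset.range n, (𝕢 n z ^ r) • idem n R r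

def QI (z : ℍ) : A := ∑ r ∈ Finset.range n, (𝕢 n z ^ r)⁻¹ • idem n R r

variable {n R}

lemma QI_mul_QQ (hn : 0 < n) (hR : R ^ n = 1) (z : ℍ) : QI n R z * QQ n R z = 1 := by
  rw [QI, QQ, Finset.sum_mul_sum, ← sum_idem (A := A) (R := R) hn]
  refine Finset.sum_congr rfl fun s hs => ?_
  rw [Finset.sum_eq_single s]
  · rw [smul_mul_smul_comm, idem_mul_idem hn hR (Finset.mem_range.mp hs) (Finset.mem_range.mp hs),
      if_pos rfl, inv_mul_cancel₀ (pow_ne_zero _ (qParam_ne_zero' _ _)), one_smul]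
  · intro r hr hrs
    rw [smul_mul_smul_comm, idem_mul_idem hn hR (Finset.mem_range.mp hr) (Finset.mem_range.mp hs),
      if_neg hrs, smul_zero]
  · intro h; exact absurd hs h

lemma R_mul_QI (hn : 0 < n) (hR : R ^ n = 1) {z w : ℍ} (hzw : 𝕢 n w = zet n * 𝕢 n z) :
    R * QI n R w = QI n R z := by
  rw [QI, QI, Finset.mul_sum]
  refine Finset.sum_congr rfl fun r _ => ?_
  rw [mul_smul_comm, R_mul_idem hn hR, smul_smul, hzw, mul_pow]
  congr 1
  have h1 := pow_ne_zero r (zet_ne_zero n)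
  have h2 := pow_ne_zero r (qParam_ne_zero' n z)
  field_simp

variable [TopologicalSpace A] [ContinuousAdd A] [ContinuousSMul ℂ A]

lemma tendsto_QQ (hn : 0 < n) : Tendsto (QQ n R) atImInfty (𝓝 (idem n R 0)) := by
  have h1 : Tendsto (fun z : ℍ => 𝕢 n z) atImInfty (𝓝 0) :=
    UpperHalfPlane.qParam_tendsto_atImInfty (by exact_mod_cast hn)
  have h2 : Tendsto (QQ n R) atImInfty
      (𝓝 (∑ r ∈ Finset.range n, ((0 : ℂ) ^ r) • idem n R r)) :=
    tendsto_finsetSum _ fun r _ => (h1.pow r).smul_const _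
  have h3 : ∑ r ∈ Finset.range n, ((0 : ℂ) ^ r) • idem n R r = idem n R 0 := by
    rw [Finset.sum_eq_single 0]
    · simp
    · intro r _ hr; rw [zero_pow hr, zero_smul]
    · intro h; exact absurd (Finset.mem_range.mpr hn) h
  rwa [h3] at h2

lemma tendsto_smul_QI {ψ : ℍ → ℂ}
    (hψ : ∀ r ∈ Finset.range n, Tendsto (fun z => ψ z * (𝕢 n z ^ r)⁻¹) atImInfty (𝓝 0)) :
    Tendsto (fun z => ψ z • QI n R z) atImInfty (𝓝 0) := by
  have h1 : ∀ z, ψ z • QI n R z = ∑ r ∈ Finset.range n, (ψ z * (𝕢 n z ^ r)⁻¹) • idem n R r := by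
    intro z
    rw [QI, Finset.smul_sum]
    exact Finset.sum_congr rfl fun r _ => by rw [smul_smul]
  simp_rw [h1]
  have h2 : Tendsto (fun z : ℍ => ∑ r ∈ Finset.range n, (ψ z * (𝕢 n z ^ r)⁻¹) • idem n R r)
      atImInfty (𝓝 (∑ r ∈ Finset.range n, (0 : ℂ) • idem n R r)) :=
    tendsto_finsetSum _ fun r hr => (hψ r hr).smul_const _
  simpa using h2

end idem

lemma qParam_pow_self (n : ℕ) (hn : 0 < n) (z : ℂ) : 𝕢 n z ^ n = 𝕢 1 z := by
  rw [Function.Periodic.qParam, Function.Periodic.qParam, ← Complex.exp_nat_mul]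
  congr 1
  have : (n : ℂ) ≠ 0 := by exact_mod_cast hn.ne'
  push_cast
  field_simp

lemma tendsto_qParam_mul {n r : ℕ} (hr : r < n) :
    Tendsto (fun z : ℍ => 𝕢 1 z * (𝕢 n z ^ r)⁻¹) atImInfty (𝓝 0) := by
  have hn : 0 < n := by omega
  have h1 : Tendsto (fun z : ℍ => 𝕢 n z) atImInfty (𝓝 0) :=
    UpperHalfPlane.qParam_tendsto_atImInfty (by exact_mod_cast hn)
  have h2 : Tendsto (fun z : ℍ => 𝕢 n z ^ (n - r)) atImInfty (𝓝 (0 ^ (n - r))) := h1.pow _
  rw [zero_pow (by omega)] at h2
  refine h2.congr fun z => ?_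
  have h3 := pow_ne_zero r (qParam_ne_zero' n z)
  rw [← qParam_pow_self n hn]
  field_simp
  rw [← pow_add]
  congr 1
  omega

/-- `Δ / q` tends to `1`. -/
lemma tendsto_disc_div : Tendsto (fun z : ℍ => Δ z / 𝕢 1 z) atImInfty (𝓝 1) := by
  have h2 := isMF_disc.qg_top
  have hd := h2.analyticAt.differentiableAt.hasDerivAt.tendsto_slope_zero
  have hv0 : cuspFunction 1 Δ 0 = 0 :=
    Function.Periodic.cuspFunction_zero_of_zero_at_inf one_pos
      discriminant_isZeroAtImInfty.zero_at_infty_comp_ofComplex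
  have h3 : deriv (cuspFunction 1 Δ) 0 = 1 := by
    have := discriminant_qExpansion_coeff_one
    rw [qExpansion_coeff] at this
    simpa using this
  rw [h3] at hd
  refine (hd.comp (tendsto_qParam_nhdsNE one_pos)).congr fun z => ?_
  simp only [Function.comp_apply, zero_add, hv0, sub_zero, smul_eq_mul]
  have h4 : Δ z = cuspFunction 1 Δ (𝕢 1 z) := (eq_cuspFunction z one_ne_zero h2.per).symm
  rw [← h4, div_eq_inv_mul]

lemma tendsto_div_disc : Tendsto (fun z : ℍ => 𝕢 1 z / Δ z) atImInfty (𝓝 1) := by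
  have := tendsto_disc_div.inv₀ one_ne_zero
  rw [inv_one] at this
  exact this.congr fun z => by rw [inv_div]

lemma tendsto_disc_mul {n r : ℕ} (hr : r < n) :
    Tendsto (fun z : ℍ => Δ z * (𝕢 n z ^ r)⁻¹) atImInfty (𝓝 0) := by
  have h1 := tendsto_disc_div.mul (tendsto_qParam_mul hr)
  rw [mul_zero] at h1
  refine h1.congr fun z => ?_
  have := qParam_ne_zero' 1 z
  field_simp

end

end Fermat.Agent.Dim
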