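import Fermat.Agent.Dim.Frame

/-! # Duality between modular forms and cusp forms. -/

set_option autoImplicit false

open UpperHalfPlane ModularForm Complex Filter Topology Matrix.SpecialLinearGroup Matrix
open scoped MatrixGroups Manifold

namespace Fermat.Agent.Dim

noncomputable section

open Fermat.Agent.MFLib

set_option linter.unusedSectionVars false

local notation "Δ" => ModularForm.discriminant

variable {k l w : ℤ} {f g : ℍ → ℂ}

lemma mdiff_prod {ι : Type*} (s : Finset ι) (F : ι → ℍ → ℂ) (h : ∀ i ∈ s, MDiff (F i)) :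
    MDiff (fun z => ∏ i ∈ s, F i z) := by
  classical
  induction s using Finset.induction_on with
  | empty => simpa using mdifferentiable_const
  | insert i s hi ih =>
    have h1 : (fun z => ∏ j ∈ insert i s, F j z) = fun z => F i z * ∏ j ∈ s, F j z := by
      ext z; rw [Finset.prod_insert hi]
    rw [h1]
    exact (h i (Finset.mem_insert_self i s)).mul
      (ih fun j hj => h j (Finset.mem_insert_of_mem hj))

lemma mdiff_det {ι : Type*} [Fintype ι] [DecidableEq ι] (M : ℍ → Matrix ι ι ℂ)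
    (h : ∀ i j, MDiff (fun z => M z i j)) : MDiff (fun z => (M z).det) := by
  simp_rw [Matrix.det_apply']
  refine mdiff_sum _ _ fun σ _ => ?_
  have h1 := mdiff_prod Finset.univ (fun i z => M z (σ i) i) fun i _ => h _ _
  exact mdiff_mul mdifferentiable_const h1

lemma mdiff_matrix_inv {ι : Type*} [Fintype ι] [DecidableEq ι] (M : ℍ → Matrix ι ι ℂ)
    (h : ∀ i j, MDiff (fun z => M z i j)) (h0 : ∀ z, IsUnit (M z).det) (i j : ι) :
    MDiff (fun z => (M z)⁻¹ i j) := by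
  have h1 : (fun z => (M z)⁻¹ i j) = fun z => (M z).det⁻¹ * (M z).adjugate i j := by
    ext z
    rw [Matrix.inv_def, Matrix.smul_apply, smul_eq_mul, Ring.inverse_eq_inv']
  rw [h1]
  refine mdiff_mul (mdiff_inv (mdiff_det M h) fun z => (h0 z).ne_zero) ?_
  simp_rw [Matrix.adjugate_apply]
  refine mdiff_det _ fun a b => ?_
  by_cases hab : a = j
  · subst hab
    simp only [Matrix.updateRow_self]
    exact mdifferentiable_const
  · simp only [Matrix.updateRow_ne hab]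
    exact h a b

lemma tendsto_matrix_inv {ι α : Type*} [Fintype ι] [DecidableEq ι] {𝓕 : Filter α}
    {M : α → Matrix ι ι ℂ} {L : Matrix ι ι ℂ} (h : Tendsto M 𝓕 (𝓝 L)) (hL : IsUnit L.det) :
    Tendsto (fun z => (M z)⁻¹) 𝓕 (𝓝 L⁻¹) := by
  simp_rw [Matrix.inv_def, Ring.inverse_eq_inv']
  have h1 : Tendsto (fun z => (M z).det) 𝓕 (𝓝 L.det) :=
    ((continuous_id.matrix_det).tendsto L).comp h
  have h2 : Tendsto (fun z => (M z).adjugate) 𝓕 (𝓝 L.adjugate) :=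
    ((continuous_id.matrix_adjugate).tendsto L).comp h
  exact (h1.inv₀ hL.ne_zero).smul h2

namespace Frame

variable {Γ : Subgroup SL(2, ℤ)} [Γ.FiniteIndex] (Fr : Frame Γ)

/-- the dual family -/
def φ (i q : SL(2, ℤ) ⧸ Γ) (z : ℍ) : ℂ := Δ z * (Fr.F z)⁻¹ q i

lemma mdiff_φ (i q : SL(2, ℤ) ⧸ Γ) : MDiff (Fr.φ i q) :=
  mdiff_mul isMF_disc.holo (mdiff_matrix_inv Fr.F (fun i x => mdiff_V (Fr.isMF i).toHB x)
    Fr.isUnit_det_F q i)

lemma disc_smul (γ : SL(2, ℤ)) (z : ℍ) : Δ (γ • z) = denom γ z ^ 12 * Δ z := by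
  have h1 := congrFun (isMF_disc.slash γ (Subgroup.mem_top _)) z
  rw [SL_slash_apply] at h1
  rw [← h1, _root_.zpow_neg]
  have h2 : denom γ z ≠ 0 := denom_ne_zero _ _
  have h3 : denom γ z ^ (12 : ℤ) = denom γ z ^ 12 := by norm_cast
  rw [h3]
  field_simp

lemma φ_slash (i q : SL(2, ℤ) ⧸ Γ) (γ : SL(2, ℤ)) :
    Fr.φ i q ∣[(12 - Fr.d i : ℤ)] γ = Fr.φ i (γ⁻¹ • q) := by
  ext z
  rw [SL_slash_apply, φ, φ, disc_smul, F_inv_smul]
  have h2 : denom γ z ≠ 0 := denom_ne_zero _ _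
  have h3 : denom γ z ^ (-(12 - Fr.d i : ℤ)) = denom γ z ^ Fr.d i / denom γ z ^ 12 := by
    rw [show (-(12 - Fr.d i : ℤ)) = (Fr.d i : ℤ) - 12 by ring, zpow_sub₀ h2]
    norm_cast
  rw [h3]
  field_simp

lemma tendsto_disc_smul_inv_F : Tendsto (fun z => Δ z • (Fr.F z)⁻¹) atImInfty (𝓝 0) := by
  obtain ⟨n, hn, hT⟩ := exists_width Γ
  obtain ⟨L, hL1, hL2⟩ := Fr.lim n hn hT
  set R := perm Γ ModularGroup.T with hR
  have hRn : R ^ n = 1 := permT_pow hT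
  set Ft : ℍ → Matrix (SL(2, ℤ) ⧸ Γ) (SL(2, ℤ) ⧸ Γ) ℂ := fun z => Fr.F z * QI n R z with hFt
  have h1 : Tendsto Ft atImInfty (𝓝 L) := by
    refine tendsto_pi_nhds.mpr fun i => ?_
    exact hL2 i
  have h2 : ∀ z, Fr.F z = Ft z * QQ n R z := by
    intro z
    rw [hFt]
    simp only
    rw [Matrix.mul_assoc, QI_mul_QQ hn hRn, Matrix.mul_one]
  have h3 : ∀ z, (Fr.F z)⁻¹ = QI n R z * (Ft z)⁻¹ := by
    intro z
    rw [h2, Matrix.mul_inv_rev, Matrix.inv_eq_left_inv (QI_mul_QQ hn hRn z)]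
  have h4 : Tendsto (fun z => (Ft z)⁻¹) atImInfty (𝓝 L⁻¹) :=
    tendsto_matrix_inv h1 ((Matrix.isUnit_iff_isUnit_det _).mp hL1)
  have h5 : Tendsto (fun z => Δ z • QI n R z) atImInfty (𝓝 0) :=
    tendsto_smul_QI fun r hr => tendsto_disc_mul (Finset.mem_range.mp hr)
  have h6 := h5.mul h4
  rw [zero_mul] at h6
  refine h6.congr fun z => ?_
  rw [h3, Matrix.smul_mul]

lemma tendsto_φ (i q : SL(2, ℤ) ⧸ Γ) : Tendsto (Fr.φ i q) atImInfty (𝓝 0) := by
  have h1 := (tendsto_pi_nhds.mp ((tendsto_pi_nhds.mp Fr.tendsto_disc_smul_inv_F) q)) i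
  exact h1

/-- dual forms -/
def dual (i : SL(2, ℤ) ⧸ Γ) : ℍ → ℂ := Fr.φ i ((1 : SL(2, ℤ)) : SL(2, ℤ) ⧸ Γ)

lemma isCF_dual (i : SL(2, ℤ) ⧸ Γ) : IsCF Γ (12 - Fr.d i) (Fr.dual i) where
  holo := Fr.mdiff_φ i _
  bdd γ := by
    rw [dual, φ_slash]
    exact (Fr.tendsto_φ i _).isBigO_one ℝ
  slash γ hγ := by
    rw [dual, φ_slash]
    congr 1
    have : γ⁻¹ • ((1 : SL(2, ℤ)) : SL(2, ℤ) ⧸ Γ) = ((γ⁻¹ * 1 : SL(2, ℤ)) : SL(2, ℤ) ⧸ Γ) := rfl
    rw [this, mul_one, QuotientGroup.eq]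
    simpa using hγ
  zero_cusps γ := by
    rw [dual, φ_slash]
    exact Fr.tendsto_φ i _

lemma V_dual (i q : SL(2, ℤ) ⧸ Γ) (z : ℍ) : V Γ (12 - Fr.d i) (Fr.dual i) z q = Fr.φ i q z := by
  induction q using QuotientGroup.induction_on with
  | H g =>
    rw [V, conj_mk (Fr.isCF_dual i).toIsMF, dual, φ_slash, inv_inv]
    have : g • ((1 : SL(2, ℤ)) : SL(2, ℤ) ⧸ Γ) = ((g * 1 : SL(2, ℤ)) : SL(2, ℤ) ⧸ Γ) := rfl
    rw [this, mul_one]

lemma tendsto_V_cusp (hf : IsCF Γ k f) (x : SL(2, ℤ) ⧸ Γ) :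
    Tendsto (fun z => V Γ k f z x) atImInfty (𝓝 0) := hf.zero_cusps _

/-- pairing with the basis -/
lemma exists_pairing (hf : IsCF Γ w f) (j : SL(2, ℤ) ⧸ Γ) :
    ∃ h, IsMF ⊤ (w - 12 + Fr.d j) h ∧ ∀ z, (Fr.F z *ᵥ V Γ w f z) j = Δ z * h z := by
  set t : ℍ → ℂ := tr Γ (w + Fr.d j) (f * Fr.g j) with ht
  have htMF : IsMF ⊤ (w + Fr.d j) t := isMF_tr (hf.toIsMF.mul (Fr.isMF j))
  have htz : ∀ z, t z = (Fr.F z *ᵥ V Γ w f z) j := by
    intro z
    rw [ht, tr, Finset.sum_apply]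
    rw [Matrix.mulVec, dotProduct]
    refine Finset.sum_congr rfl fun x _ => ?_
    rw [conj_mul hf.toIsMF (Fr.isMF j), Pi.mul_apply, mul_comm]
    rfl
  have h0 : IsZeroAtImInfty t := by
    have h1 : Tendsto (fun z => ∑ x, Fr.F z j x * V Γ w f z x) atImInfty
        (𝓝 (∑ _x : SL(2, ℤ) ⧸ Γ, (0 : ℂ))) := by
      refine tendsto_finsetSum _ fun x _ => ?_
      have h4 : (fun z => Fr.F z j x * V Γ w f z x) =o[atImInfty] (fun _ => (1 : ℝ) * 1) :=
        (isBoundedAtImInfty_V (Fr.isMF j).toHB x).mul_isLittleO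
          ((Asymptotics.isLittleO_one_iff ℝ).mpr (tendsto_V_cusp hf x))
      rw [mul_one] at h4
      exact (Asymptotics.isLittleO_one_iff ℝ).mp h4
    rw [Finset.sum_const_zero] at h1
    exact h1.congr fun z => (htz z).symm
  obtain ⟨h, hh1, hh2⟩ := levelOne_cusp_div htMF h0
  refine ⟨h, hh1.congr_weight (by ring), fun z => ?_⟩
  rw [← htz, hh2]; rfl

theorem cusp_span (hf : IsCF Γ w f) : ∃ h : SL(2, ℤ) ⧸ Γ → ℍ → ℂ,
    (∀ i, IsMF ⊤ (w - 12 + Fr.d i) (h i)) ∧ f = ∑ i, h i * Fr.dual i := by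
  choose h hh1 hh2 using fun j => Fr.exists_pairing hf j
  refine ⟨h, hh1, ?_⟩
  ext z
  have h1 : V Γ w f z = (Fr.F z)⁻¹ *ᵥ (Fr.F z *ᵥ V Γ w f z) := by
    rw [Matrix.mulVec_mulVec, Matrix.nonsing_inv_mul _ (Fr.isUnit_det_F z), Matrix.one_mulVec]
  have h2 := congrFun h1 ((1 : SL(2, ℤ)) : SL(2, ℤ) ⧸ Γ)
  have h3 : V Γ w f z ((1 : SL(2, ℤ)) : SL(2, ℤ) ⧸ Γ) = f z := by
    rw [V, conj_one hf.toIsMF]
  rw [h3] at h2
  rw [h2, Matrix.mulVec, dotProduct, Finset.sum_apply]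
  refine Finset.sum_congr rfl fun i _ => ?_
  rw [hh2, Pi.mul_apply, dual, φ]
  ring

theorem cusp_indep {h : SL(2, ℤ) ⧸ Γ → ℍ → ℂ} (hh : ∀ i, IsMF ⊤ (w - 12 + Fr.d i) (h i))
    (h0 : ∑ i, h i * Fr.dual i = 0) : ∀ i, h i = 0 := by
  have h1 : ∀ z, (Fr.F z)⁻¹ *ᵥ (fun i => Δ z * h i z) = 0 := by
    intro z
    ext q
    have h2 : V Γ w (∑ i, h i * Fr.dual i) z = 0 := by
      rw [h0]
      ext x
      simp [V, MFLib.conj]
    have h3 := congrFun h2 q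
    rw [V_sum, Finset.sum_apply] at h3
    rw [Pi.zero_apply] at h3 ⊢
    rw [← h3, Matrix.mulVec, dotProduct]
    refine Finset.sum_congr rfl fun i _ => ?_
    have h4 : V Γ w (h i * Fr.dual i) z = h i z • V Γ (12 - Fr.d i) (Fr.dual i) z := by
      rw [← V_levelOne_mul (hh i)]
      congr 1
      ring
    rw [h4, Pi.smul_apply, V_dual, φ, smul_eq_mul]
    ring
  intro i
  ext z
  have h5 : (fun i => Δ z * h i z) = Fr.F z *ᵥ ((Fr.F z)⁻¹ *ᵥ (fun i => Δ z * h i z)) := by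
    rw [Matrix.mulVec_mulVec, Matrix.mul_nonsing_inv _ (Fr.isUnit_det_F z), Matrix.one_mulVec]
  rw [h1, Matrix.mulVec_zero] at h5
  have h6 := congrFun h5 i
  simp only [Pi.zero_apply, mul_eq_zero] at h6
  exact h6.resolve_left (discriminant_ne_zero z)

lemma dual_ne_zero (i : SL(2, ℤ) ⧸ Γ) : Fr.dual i ≠ 0 := by
  classical
  intro h
  have h1 := Fr.cusp_indep (w := 12 - Fr.d i) (h := fun j => if j = i then 1 else 0) (by
    intro j
    by_cases hj : j = i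
    · subst hj
      simp only [if_true]
      exact IsMF.one.congr_weight (by ring)
    · simp only [if_neg hj]
      exact IsMF.zero) (by
    rw [Finset.sum_eq_single i]
    · rw [h, mul_zero]
    · intro j _ hj
      rw [if_neg hj, zero_mul]
    · intro hi; exact absurd (Finset.mem_univ i) hi) i
  have := congrFun h1 UpperHalfPlane.I
  simp at this

lemma d_lt (i : SL(2, ℤ) ⧸ Γ) : Fr.d i < 12 := by
  by_contra hge
  rw [not_lt] at hge
  have hcf := Fr.isCF_dual i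
  rcases hge.eq_or_lt with heq | hlt
  · have h1 : IsMF Γ 0 (Fr.dual i) := hcf.toIsMF.congr_weight (by rw [← heq]; norm_num)
    obtain ⟨c, hc⟩ := isMF_zero_weight h1
    have h2 : Tendsto (Fr.dual i) atImInfty (𝓝 0) := by
      have := hcf.zero_cusps 1
      rwa [SlashAction.slash_one] at this
    rw [hc] at h2
    have h3 : c = 0 := tendsto_nhds_unique tendsto_const_nhds h2
    apply Fr.dual_ne_zero i
    rw [hc, h3]
    rfl
  · exact Fr.dual_ne_zero i (isMF_neg_weight (by omega) hcf.toIsMF)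

lemma d_mem (i : SL(2, ℤ) ⧸ Γ) : Fr.d i ∈ ({0, 2, 4, 6, 8, 10} : Finset ℕ) := by
  have h1 := Fr.d_lt i
  have h2 := Fr.even i
  obtain ⟨r, hr⟩ := h2
  simp only [Finset.mem_insert, Finset.mem_singleton]
  omega

end Frame

end

end Fermat.Agent.Dim
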