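import Fermat.Agent.Dim.ODE

/-! # Frames: square matrices of conjugates. -/

set_option autoImplicit false

open UpperHalfPlane ModularForm Complex Filter Topology Matrix.SpecialLinearGroup Matrix
open scoped MatrixGroups Manifold

namespace Fermat.Agent.Dim

noncomputable section

open Fermat.Agent.MFLib

set_option linter.unusedSectionVars false

local notation "Δ" => ModularForm.discriminant

variable {k l : ℤ} {f g : ℍ → ℂ}

/-- homogeneous basis of the ring of modular forms over the level one ring, indexed by cosets. -/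
structure Frame (Γ : Subgroup SL(2, ℤ)) [Γ.FiniteIndex] where
  d : SL(2, ℤ) ⧸ Γ → ℕ
  g : SL(2, ℤ) ⧸ Γ → ℍ → ℂ
  isMF : ∀ i, IsMF Γ (d i) (g i)
  even : ∀ i, Even (d i)
  span : ∀ (k : ℤ) (f : ℍ → ℂ), IsMF Γ k f → ∃ a : SL(2, ℤ) ⧸ Γ → ℍ → ℂ,
    (∀ i, IsMF ⊤ (k - d i) (a i)) ∧ f = ∑ i, a i * g i
  indep : ∀ (k : ℤ) (a : SL(2, ℤ) ⧸ Γ → ℍ → ℂ), (∀ i, IsMF ⊤ (k - d i) (a i)) →
    ∑ i, a i * g i = 0 → ∀ i, a i = 0
  inv : ∀ z, IsUnit (Matrix.of fun i x => V Γ (d i) (g i) z x)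
  lim : ∀ n : ℕ, 0 < n → (∀ x : SL(2, ℤ) ⧸ Γ, ModularGroup.T ^ n • x = x) →
    ∃ L : Matrix (SL(2, ℤ) ⧸ Γ) (SL(2, ℤ) ⧸ Γ) ℂ, IsUnit L ∧
      ∀ i, Tendsto (Vt Γ (d i) (g i) n) atImInfty (𝓝 (L i))

theorem exists_frame {Γ : Subgroup SL(2, ℤ)} [Γ.FiniteIndex] [∀ k, Module.Finite ℂ (mf Γ k)]
    (h1 : -1 ∈ Γ) {x : ℍ → ℂ} (hx : IsMF Γ 12 x)
    (hinj : Function.Injective (MFLib.conj Γ 12 x)) : Nonempty (Frame Γ) := by
  classical
  obtain ⟨G⟩ := exists_gens Γ
  have hfin := G.finite h1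
  have hcard := G.card_eq h1 hx hinj
  obtain ⟨e⟩ : Nonempty ((SL(2, ℤ) ⧸ Γ) ≃ G.J) := Finite.card_eq.mp hcard.symm
  have hsurj : ∀ (s : Finset G.J), s ⊆ Finset.univ.map e.toEmbedding := by
    intro s j _
    simp
  refine ⟨{
    d := fun i => G.d (e i)
    g := fun i => G.g (e i)
    isMF := fun i => G.isMF _
    even := fun i => G.even_d h1 _
    span := ?_
    indep := ?_
    inv := ?_
    lim := ?_ }⟩
  · intro k f hf
    obtain ⟨a, ha1, ha2⟩ := G.spanning (k.toNat + 1) k (by omega) f hf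
    refine ⟨fun i => a (e i), fun i => ha1 _, ?_⟩
    rw [ha2 _ (hsurj _), Finset.sum_map]
    rfl
  · intro k a ha hsum i
    have h2 := G.independent (k.toNat + 1) k (by omega) (Finset.univ.map e.toEmbedding)
      (fun j => a (e.symm j)) (fun j _ => by
        have := ha (e.symm j)
        simpa using this) (by
        rw [Finset.sum_map]
        simpa using hsum) (e i) (by simp)
    simpa using h2
  · intro z
    obtain ⟨z₁, hz₁⟩ := G.exists_kernel_trivial hx hinj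
    rw [← Matrix.mulVec_injective_iff_isUnit]
    intro u v huv
    rw [← sub_eq_zero] at huv ⊢
    rw [← Matrix.mulVec_sub] at huv
    apply hz₁
    intro j
    refine G.kernel_const z _ (fun j' => ?_) j z₁
    have h2 := congrFun huv (e.symm j')
    simpa [Matrix.mulVec] using h2
  · intro n hn hT
    choose L hL using fun j => exists_tendsto_Vt hn hT (G.isMF j)
    have h2 := G.limits_indep hn hT h1 L hL
    refine ⟨Matrix.of fun i => L (e i), ?_, fun i => hL _⟩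
    rw [← Matrix.linearIndependent_rows_iff_isUnit]
    exact h2.comp e e.injective

theorem exists_frame_Gamma0 (N : ℕ) [NeZero N] : Nonempty (Frame (CongruenceSubgroup.Gamma0 N)) :=
  exists_frame (neg_one_mem_Gamma0 N) (isMF_xN N) (conj_xN_injective N)

namespace Frame

variable {Γ : Subgroup SL(2, ℤ)} [Γ.FiniteIndex] (Fr : Frame Γ)

/-- the matrix of conjugates -/
def F (z : ℍ) : Matrix (SL(2, ℤ) ⧸ Γ) (SL(2, ℤ) ⧸ Γ) ℂ :=
  Matrix.of fun i x => V Γ (Fr.d i) (Fr.g i) z x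

lemma isUnit_F (z : ℍ) : IsUnit (Fr.F z) := Fr.inv z

lemma isUnit_det_F (z : ℍ) : IsUnit (Fr.F z).det :=
  (Matrix.isUnit_iff_isUnit_det _).mp (Fr.isUnit_F z)

lemma F_smul (γ : SL(2, ℤ)) (z : ℍ) : Fr.F (γ • z) =
    Matrix.diagonal (fun i => (denom γ z) ^ Fr.d i) * Fr.F z * perm Γ γ := by
  ext i x
  have h1 := congrFun (V_smul (Fr.isMF i) γ z) x
  rw [F, Matrix.of_apply, h1, Matrix.mul_assoc, Matrix.diagonal_mul]
  rw [Pi.smul_apply, smul_eq_mul, _root_.zpow_natCast]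
  rfl

lemma perm_inv (γ : SL(2, ℤ)) : (perm Γ γ)⁻¹ = perm Γ γ⁻¹ := by
  refine Matrix.inv_eq_right_inv ?_
  rw [perm_mul, inv_mul_cancel, perm_one]

lemma F_inv_smul (γ : SL(2, ℤ)) (z : ℍ) (q i : SL(2, ℤ) ⧸ Γ) :
    (Fr.F (γ • z))⁻¹ q i = ((denom γ z) ^ Fr.d i)⁻¹ * (Fr.F z)⁻¹ (γ⁻¹ • q) i := by
  have hd : (Matrix.diagonal (fun i => (denom γ z) ^ Fr.d i))⁻¹ =
      Matrix.diagonal (fun i => ((denom γ z) ^ Fr.d i)⁻¹) := by
    refine Matrix.inv_eq_right_inv ?_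
    rw [Matrix.diagonal_mul_diagonal]
    rw [← Matrix.diagonal_one]
    congr 1
    ext j
    exact mul_inv_cancel₀ (pow_ne_zero _ (denom_ne_zero _ _))
  rw [F_smul, Matrix.mul_inv_rev, Matrix.mul_inv_rev, perm_inv, hd, ← Matrix.mul_assoc,
    Matrix.mul_diagonal, mul_comm]
  congr 1
  rw [Matrix.mul_apply, Finset.sum_eq_single (γ⁻¹ • q)]
  · simp [perm]
  · intro y _ hy
    have : ¬ q = γ • y := by
      rintro rfl
      exact hy (by simp)
    simp [perm, this]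
  · intro h; exact absurd (Finset.mem_univ _) h

end Frame

end

end Fermat.Agent.Dim
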