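import Fermat.Agent.Dim.LevelOne
import Fermat.Prelude.Thm_ModularForm_sturm_bound_Gamma0

/-! # The graded ring of modular forms on `Γ₀(N)` is free over the level one ring. -/

set_option autoImplicit false

open UpperHalfPlane ModularForm Complex Filter Topology Matrix.SpecialLinearGroup
open scoped MatrixGroups Manifold

namespace Fermat.Agent.Dim

noncomputable section

open Fermat.Agent.MFLib

local notation "Δ" => ModularForm.discriminant

variable {k l : ℤ} {f g : ℍ → ℂ} {Γ : Subgroup SL(2, ℤ)}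

/-- the vector space of (function-level) modular forms -/
def mf (Γ : Subgroup SL(2, ℤ)) (k : ℤ) : Submodule ℂ (ℍ → ℂ) where
  carrier := {f | IsMF Γ k f}
  add_mem' h1 h2 := h1.add h2
  zero_mem' := IsMF.zero
  smul_mem' c _ h := h.smul c

lemma mem_mf : f ∈ mf Γ k ↔ IsMF Γ k f := Iff.rfl

lemma isMF_neg_weight [Γ.FiniteIndex] (hk : k < 0) (hf : IsMF Γ k f) : f = 0 := by
  have h1 : hf.toForm = 0 := ModularForm.isZero_of_neg_weight hk hf.toForm
  simpa using congrArg (fun F : ModularForm Γ k => (F : ℍ → ℂ)) h1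

lemma isMF_zero_weight [Γ.FiniteIndex] (hf : IsMF Γ 0 f) : ∃ c : ℂ, f = Function.const ℍ c := by
  obtain ⟨c, hc⟩ := ModularForm.eq_const_of_weight_zero (hf.toForm)
  exact ⟨c, by simpa using hc⟩

lemma isMF_odd_weight (h1 : -1 ∈ Γ) (hk : Odd k) (hf : IsMF Γ k f) : f = 0 := by
  have h2 := hf.slash (-1) h1
  ext z
  have h3 := congrFun h2 z
  rw [SL_slash_apply] at h3
  have h4 : denom ((-1 : SL(2, ℤ)) : GL (Fin 2) ℝ) z = -1 := by
    rw [ModularGroup.denom_apply]; simp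
  have h5 : (-1 : SL(2, ℤ)) • z = z := by
    have := ModularGroup.SL_neg_smul (1 : SL(2, ℤ)) z
    rw [this, one_smul]
  rw [h4, h5, zpow_neg, Odd.neg_one_zpow hk] at h3
  have : f z = 0 := by
    have h6 : f z * (-1)⁻¹ = - f z := by ring
    rw [h6] at h3
    have := congrArg (fun w => w + f z) h3
    simp only [neg_add_cancel] at this
    have h7 : (2 : ℂ) * f z = 0 := by rw [this]; ring
    simpa using h7
  simpa using this

section Gamma0

variable (N : ℕ) [NeZero N]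

omit [NeZero N] in
lemma T_mem_Gamma0 : ModularGroup.T ∈ CongruenceSubgroup.Gamma0 N := by
  rw [CongruenceSubgroup.Gamma0_mem]; simp [ModularGroup.T]

omit [NeZero N] in
lemma neg_one_mem_Gamma0 : (-1 : SL(2, ℤ)) ∈ CongruenceSubgroup.Gamma0 N := by
  rw [CongruenceSubgroup.Gamma0_mem]; simp

/-- `q`-coefficients up to the Sturm bound -/
def coeffMap (k : ℤ) (B : ℕ) : mf (CongruenceSubgroup.Gamma0 N) k →ₗ[ℂ] (Fin (B + 1) → ℂ) where
  toFun f := fun n => (qExpansion 1 (f : ℍ → ℂ)).coeff n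
  map_add' f g := by
    ext n
    have hf := IsMF.qg f.2 (T_mem_Gamma0 N)
    have hg := IsMF.qg g.2 (T_mem_Gamma0 N)
    have := hf.qe_add hg
    simp only [qe] at this
    rw [Submodule.coe_add, this]
    simp
  map_smul' c f := by
    ext n
    have hf := IsMF.qg f.2 (T_mem_Gamma0 N)
    have := hf.qe_smul c
    simp only [qe] at this
    rw [Submodule.coe_smul, this]
    simp

lemma coeffMap_injective (k : ℤ) :
    Function.Injective (coeffMap N k ((k * (CongruenceSubgroup.Gamma0 N).index).toNat / 12)) := by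
  rw [injective_iff_map_eq_zero]
  intro f hf
  have h1 : IsMF (CongruenceSubgroup.Gamma0 N) k f := f.2
  have h2 := ModularForm.sturm_bound_Gamma0 N (h1.toForm) (by
    intro n hn
    have := congrFun hf ⟨n, Nat.lt_succ_of_le hn⟩
    simpa [coeffMap] using this)
  have h3 := congrArg (fun F : ModularForm (CongruenceSubgroup.Gamma0 N) k => (F : ℍ → ℂ)) h2
  apply Subtype.ext
  simpa using h3

instance finite_mf (k : ℤ) : Module.Finite ℂ (mf (CongruenceSubgroup.Gamma0 N) k) :=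
  Module.Finite.of_injective _ (coeffMap_injective N k)

lemma finrank_mf_le (k : ℤ) : Module.finrank ℂ (mf (CongruenceSubgroup.Gamma0 N) k) ≤
    (k * (CongruenceSubgroup.Gamma0 N).index).toNat / 12 + 1 := by
  have := LinearMap.finrank_le_finrank_of_injective (coeffMap_injective N k)
  simpa using this

end Gamma0

/-- level one space -/
def mfTopEquiv (k : ℤ) : mf ⊤ k ≃ₗ[ℂ] ModularForm 𝒮ℒ k where
  toFun f := IsMF.toSL f.2
  map_add' f g := by ext; rfl
  map_smul' c f := by ext; rfl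
  invFun F := ⟨F, IsMF.of_SL F⟩
  left_inv f := rfl
  right_inv F := by ext; rfl

instance finite_mf_top (k : ℤ) : Module.Finite ℂ (mf ⊤ k) :=
  Module.Finite.equiv (mfTopEquiv k).symm

lemma finrank_mf_top (m : ℕ) (hm : Even m) : m / 12 ≤ Module.finrank ℂ (mf ⊤ (m : ℤ)) := by
  have h := (mfTopEquiv m).finrank_eq
  rw [h, Module.finrank, ModularForm.dimension_level_one m hm]
  split_ifs with h
  · rw [Cardinal.toNat_natCast]
  · rw [Cardinal.toNat_natCast]
    omega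

/-- regularity of the sequence `E₄, E₆`. -/
lemma regular {h1 h2 : ℍ → ℂ} (hh1 : IsMF Γ (k - 4) h1) (hh2 : IsMF Γ (k - 6) h2)
    (h : ⇑E₄ * h1 = -(⇑E₆ * h2)) :
    ∃ r, IsMF Γ (k - 10) r ∧ h1 = ⇑E₆ * r ∧ h2 = -(⇑E₄ * r) := by
  set num : ℍ → ℂ := (-1 / 1728 : ℂ) • ((⇑E₄) ^ 2 * h2 + ⇑E₆ * h1) with hnum
  have hnumMF : IsMF Γ (k + 2) num := by
    refine IsMF.smul _ (IsMF.add ?_ ?_)
    · exact (((isMF_E4.pow 2).mono le_top).mul hh2).congr_weight (by push_cast; ring)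
    · exact ((isMF_E6.mono le_top).mul hh1).congr_weight (by ring)
  have hz : ∀ z, E₄ z * h1 z = -(E₆ z * h2 z) := fun z => congrFun h z
  have hd : ∀ z, discriminant z = (E₄ z ^ 3 - E₆ z ^ 2) / 1728 :=
    ModularForm.discriminant_eq_E₄_cube_sub_E₆_sq
  have hd0 : ∀ z, (E₄ z ^ 3 - E₆ z ^ 2) ≠ 0 := by
    intro z h0
    apply discriminant_ne_zero z
    rw [hd, h0, zero_div]
  have e1 : h1 = ⇑E₆ * (num / Δ) := by
    ext z
    have h3 := hd0 z
    have h4 := hz z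
    simp only [Pi.mul_apply, Pi.div_apply, hnum, Pi.smul_apply, Pi.add_apply, Pi.pow_apply,
      smul_eq_mul]
    rw [hd]
    field_simp
    linear_combination (E₄ z ^ 2) * h4
  have e2 : h2 = -(⇑E₄ * (num / Δ)) := by
    ext z
    have h3 := hd0 z
    have h4 := hz z
    simp only [Pi.neg_apply, Pi.mul_apply, Pi.div_apply, hnum, Pi.smul_apply, Pi.add_apply,
      Pi.pow_apply, smul_eq_mul]
    rw [hd]
    field_simp
    linear_combination (- E₆ z) * h4
  refine ⟨num / Δ, ⟨⟨?_, ?_⟩, ?_⟩, e1, e2⟩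
  · exact hnumMF.holo.div isMF_disc.holo discriminant_ne_zero
  · intro γ
    have h5 : (⇑E₆ : ℍ → ℂ) * ((num / Δ) ∣[k - 10] γ) = h1 ∣[k - 4] γ := by
      conv_rhs => rw [e1]
      rw [show k - 4 = 6 + (k - 10) by ring, mul_slash_SL2, isMF_E6.slash γ (Subgroup.mem_top _)]
    have h6 : IsBoundedAtImInfty (h1 ∣[k - 4] γ) := hh1.bdd γ
    rw [← h5] at h6
    have h7 : ∀ᶠ z in atImInfty, (1 / 2 : ℝ) ≤ ‖E₆ z‖ := by
      have := tendsto_E6.norm
      rw [norm_one] at this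
      exact this.eventually_const_le (by norm_num)
    rw [IsBoundedAtImInfty, BoundedAtFilter] at h6 ⊢
    obtain ⟨C, hC⟩ := h6.bound
    refine Asymptotics.IsBigO.of_bound (2 * C) ?_
    filter_upwards [hC, h7] with z h8 h9
    simp only [Pi.mul_apply, norm_mul, Pi.one_apply, norm_one, mul_one] at h8 ⊢
    nlinarith [norm_nonneg (((num / Δ) ∣[k - 10] γ) z)]
  · intro γ hγ
    rw [show k - 10 = (k + 2) - 12 by ring, div_slash_SL2, hnumMF.slash γ hγ,
      isMF_disc.slash γ (Subgroup.mem_top _)]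

/-- A (possibly infinite) homogeneous generating family, minimal modulo `(E₄, E₆)`. -/
structure Gens (Γ : Subgroup SL(2, ℤ)) where
  J : Type
  d : J → ℕ
  g : J → ℍ → ℂ
  L : ℕ → Finset J
  mem_L : ∀ k j, j ∈ L k ↔ d j = k
  isMF : ∀ j, IsMF Γ (d j) (g j)
  span : ∀ (k : ℕ) (f : ℍ → ℂ), IsMF Γ k f → ∃ (c : J → ℂ) (a b : ℍ → ℂ), IsMF Γ ((k : ℤ) - 4) a ∧
    IsMF Γ ((k : ℤ) - 6) b ∧ f = ∑ j ∈ L k, c j • g j + ⇑E₄ * a + ⇑E₆ * b
  indep : ∀ (k : ℕ) (c : J → ℂ) (a b : ℍ → ℂ), IsMF Γ ((k : ℤ) - 4) a → IsMF Γ ((k : ℤ) - 6) b →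
    ∑ j ∈ L k, c j • g j = ⇑E₄ * a + ⇑E₆ * b → ∀ j ∈ L k, c j = 0

lemma exists_level_gens [∀ k, Module.Finite ℂ (mf Γ k)] (k : ℤ) :
    ∃ (n : ℕ) (g : Fin n → ℍ → ℂ), (∀ i, IsMF Γ k (g i)) ∧
      (∀ f, IsMF Γ k f → ∃ (c : Fin n → ℂ) (a b : ℍ → ℂ), IsMF Γ (k - 4) a ∧ IsMF Γ (k - 6) b ∧
        f = ∑ i, c i • g i + ⇑E₄ * a + ⇑E₆ * b) ∧
      (∀ (c : Fin n → ℂ) (a b : ℍ → ℂ), IsMF Γ (k - 4) a → IsMF Γ (k - 6) b →
        ∑ i, c i • g i = ⇑E₄ * a + ⇑E₆ * b → c = 0) := by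
  -- the submodule `W = E₄ M_{k-4} + E₆ M_{k-6}` of `mf Γ k`
  let φ4 : mf Γ (k - 4) →ₗ[ℂ] mf Γ k :=
    { toFun := fun a => ⟨⇑E₄ * a, ((isMF_E4.mono le_top).mul a.2).congr_weight (by ring)⟩
      map_add' := fun a b => by ext; simp [mul_add]
      map_smul' := fun c a => by ext; simp; ring }
  let φ6 : mf Γ (k - 6) →ₗ[ℂ] mf Γ k :=
    { toFun := fun a => ⟨⇑E₆ * a, ((isMF_E6.mono le_top).mul a.2).congr_weight (by ring)⟩
      map_add' := fun a b => by ext; simp [mul_add]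
      map_smul' := fun c a => by ext; simp; ring }
  let W : Submodule ℂ (mf Γ k) := LinearMap.range φ4 ⊔ LinearMap.range φ6
  obtain ⟨C, hC⟩ := Submodule.exists_isCompl W
  have : FiniteDimensional ℂ (mf Γ k) := inferInstance
  have : Module.Finite ℂ C := FiniteDimensional.finiteDimensional_submodule C
  have : Module.Free ℂ C := Module.Free.of_divisionRing ℂ C
  let b := Module.finBasis ℂ C
  refine ⟨Module.finrank ℂ C, fun i => ((b i : C) : mf Γ k), fun i => ((b i : C) : mf Γ k).2, ?_, ?_⟩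
  · intro f hf
    have h1 : (⟨f, hf⟩ : mf Γ k) ∈ W ⊔ C := by rw [hC.sup_eq_top]; exact Submodule.mem_top
    obtain ⟨w, hw, c, hc, hwc⟩ := Submodule.mem_sup.mp h1
    obtain ⟨w4, ⟨a, rfl⟩, w6, ⟨a', rfl⟩, hww⟩ := Submodule.mem_sup.mp hw
    refine ⟨b.repr ⟨c, hc⟩, a, a', a.2, a'.2, ?_⟩
    have h2 := congrArg (fun x : C => ((x : mf Γ k) : ℍ → ℂ)) (b.sum_repr ⟨c, hc⟩)
    have h3 := congrArg (fun x : mf Γ k => (x : ℍ → ℂ)) hwc
    have h4 := congrArg (fun x : mf Γ k => (x : ℍ → ℂ)) hww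
    simp only [Submodule.coe_add, Submodule.coe_sum, Submodule.coe_smul] at h2 h3 h4
    rw [← h3, ← h4, h2]
    simp only [φ4, φ6, LinearMap.coe_mk, AddHom.coe_mk]
    ring
  · intro c a a' ha ha' h
    have h1 : (∑ i, c i • ((b i : C) : mf Γ k)) ∈ W := by
      have : (∑ i, c i • ((b i : C) : mf Γ k)) = φ4 ⟨a, ha⟩ + φ6 ⟨a', ha'⟩ := by
        apply Subtype.ext
        rw [Submodule.coe_sum, Submodule.coe_add]
        simpa [φ4, φ6] using h
      rw [this]
      exact Submodule.add_mem_sup ⟨_, rfl⟩ ⟨_, rfl⟩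
    have h2 : (∑ i, c i • ((b i : C) : mf Γ k)) ∈ C :=
      Submodule.sum_mem _ fun i _ => Submodule.smul_mem _ _ (b i).2
    have h3 : (∑ i, c i • ((b i : C) : mf Γ k)) = 0 := by
      have := hC.disjoint.le_bot ⟨h1, h2⟩
      simpa using this
    have h4 : ∑ i, c i • b i = 0 := by
      apply Subtype.ext
      rw [Submodule.coe_sum]
      simpa using h3
    have h5 := b.repr_sum_self c
    rw [h4, map_zero] at h5
    rw [← h5]; rfl

theorem exists_gens (Γ : Subgroup SL(2, ℤ)) [∀ k, Module.Finite ℂ (mf Γ k)] :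
    Nonempty (Gens Γ) := by
  classical
  choose n g h1 h2 h3 using fun k : ℕ => exists_level_gens (Γ := Γ) (k : ℤ)
  refine ⟨{
    J := Σ k : ℕ, Fin (n k)
    d := fun j => j.1
    g := fun j => g j.1 j.2
    L := fun k => (Finset.univ : Finset (Fin (n k))).map ⟨Sigma.mk k, sigma_mk_injective⟩
    mem_L := ?_
    isMF := fun j => h1 j.1 j.2
    span := ?_
    indep := ?_ }⟩
  · rintro k ⟨m, i⟩
    simp only [Finset.mem_map, Finset.mem_univ, true_and, Function.Embedding.coeFn_mk]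
    constructor
    · rintro ⟨x, hx⟩
      exact (congrArg Sigma.fst hx).symm
    · rintro rfl
      exact ⟨i, rfl⟩
  · intro k f hf
    obtain ⟨c, a, b, ha, hb, hfe⟩ := h2 k f hf
    refine ⟨fun j => if h : j.1 = k then c (h ▸ j.2) else 0, a, b, ha, hb, ?_⟩
    rw [hfe, Finset.sum_map]
    simp
  · intro k c a b ha hb h j hj
    rw [Finset.sum_map] at h
    have h5 := h3 k (fun i => c ⟨k, i⟩) a b ha hb (by simpa using h)
    obtain ⟨i, -, rfl⟩ := Finset.mem_map.mp hj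
    exact congrFun h5 i

end

end Fermat.Agent.Dim
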