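import Fermat.Agent.Dim.Free

/-! # The free-module theorem. -/

set_option autoImplicit false

open UpperHalfPlane ModularForm Complex Filter Topology Matrix.SpecialLinearGroup
open scoped MatrixGroups Manifold

namespace Fermat.Agent.Dim

noncomputable section

open Fermat.Agent.MFLib

local notation "Δ" => ModularForm.discriminant

variable {k l : ℤ} {f g : ℍ → ℂ} {Γ : Subgroup SL(2, ℤ)}

open Classical in
/-- generators of degree at most `k` -/
def Gens.upTo (G : Gens Γ) (k : ℕ) : Finset G.J := (Finset.range (k + 1)).biUnion G.L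

lemma Gens.mem_upTo (G : Gens Γ) {k : ℕ} {j : G.J} : j ∈ G.upTo k ↔ G.d j ≤ k := by
  classical
  rw [Gens.upTo, Finset.mem_biUnion]
  constructor
  · rintro ⟨m, hm, hj⟩
    rw [G.mem_L] at hj
    rw [Finset.mem_range] at hm
    omega
  · intro h
    exact ⟨G.d j, Finset.mem_range.mpr (by omega), (G.mem_L _ _).mpr rfl⟩

lemma isMF_sum_mul {ι : Type*} {d : ι → ℤ} {g : ι → ℍ → ℂ} {s : Finset ι}
    (hg : ∀ i, IsMF Γ (d i) (g i)) {a : ι → ℍ → ℂ} (ha : ∀ i ∈ s, IsMF ⊤ (k - d i) (a i)) :
    IsMF Γ k (∑ i ∈ s, a i * g i) :=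
  IsMF.sum fun i hi => (((ha i hi).mono le_top).mul (hg i)).congr_weight (by ring)

/-- spanning -/
theorem Gens.spanning [Γ.FiniteIndex] (G : Gens Γ) : ∀ (n : ℕ) (k : ℤ), k < n → ∀ f, IsMF Γ k f →
    ∃ a : G.J → ℍ → ℂ, (∀ j, IsMF ⊤ (k - G.d j) (a j)) ∧
      ∀ s, G.upTo k.toNat ⊆ s → f = ∑ j ∈ s, a j * G.g j := by
  classical
  intro n
  induction n with
  | zero =>
    intro k hk f hf
    refine ⟨fun _ => 0, fun _ => IsMF.zero, fun s _ => ?_⟩
    rw [isMF_neg_weight (by exact_mod_cast hk) hf]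
    simp
  | succ n ih =>
    intro k hk f hf
    rcases lt_or_ge k 0 with hneg | hnn
    · refine ⟨fun _ => 0, fun _ => IsMF.zero, fun s _ => ?_⟩
      rw [isMF_neg_weight hneg hf]
      simp
    obtain ⟨m, rfl⟩ := Int.eq_ofNat_of_zero_le hnn
    have hmn : (m : ℤ) ≤ n := by push_cast at hk; omega
    obtain ⟨c, u, v, hu, hv, hfe⟩ := G.span m f hf
    obtain ⟨a, ha1, ha2⟩ := ih _ (by omega) u hu
    obtain ⟨b, hb1, hb2⟩ := ih _ (by omega) v hv
    refine ⟨fun j => (if G.d j = m then Function.const ℍ (c j) else 0) + ⇑E₄ * a j + ⇑E₆ * b j,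
      fun j => ?_, fun s hs => ?_⟩
    · refine IsMF.add (IsMF.add ?_ ?_) ?_
      · split_ifs with h
        · exact (IsMF.const (c j)).congr_weight (by rw [h]; ring)
        · exact IsMF.zero
      · exact (isMF_E4.mul (ha1 j)).congr_weight (by ring)
      · exact (isMF_E6.mul (hb1 j)).congr_weight (by ring)
    · have hs' : ∀ j, G.d j ≤ m → j ∈ s := fun j hj => hs (G.mem_upTo.mpr (by simpa using hj))
      have hu' := ha2 s (fun j hj => hs' j (by
        have := G.mem_upTo.mp hj
        omega))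
      have hv' := hb2 s (fun j hj => hs' j (by
        have := G.mem_upTo.mp hj
        omega))
      have hc : ∑ j ∈ s, (if G.d j = m then Function.const ℍ (c j) else 0) * G.g j =
          ∑ j ∈ G.L m, c j • G.g j := by
        symm
        rw [← Finset.sum_subset (s₁ := G.L m) (s₂ := s)]
        · refine Finset.sum_congr rfl fun j hj => ?_
          rw [if_pos ((G.mem_L m j).mp hj)]
          ext z; simp
        · intro j hj
          exact hs' j (by rw [(G.mem_L m j).mp hj])
        · intro j _ hj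
          rw [if_neg (fun h => hj ((G.mem_L m j).mpr h)), zero_mul]
      rw [hfe, ← hc]
      conv_lhs => rw [hu', hv']
      rw [Finset.mul_sum, Finset.mul_sum, ← Finset.sum_add_distrib, ← Finset.sum_add_distrib]
      refine Finset.sum_congr rfl fun j _ => ?_
      ring

/-- independence -/
theorem Gens.independent [Γ.FiniteIndex] (G : Gens Γ) : ∀ (n : ℕ) (k : ℤ), k < n →
    ∀ (s : Finset G.J) (a : G.J → ℍ → ℂ), (∀ j ∈ s, IsMF ⊤ (k - G.d j) (a j)) →
      ∑ j ∈ s, a j * G.g j = 0 → ∀ j ∈ s, a j = 0 := by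
  classical
  intro n
  induction n with
  | zero =>
    intro k hk s a ha _ j hj
    exact levelOne_neg (by have := Int.natCast_nonneg (G.d j); push_cast at hk; omega) (ha j hj)
  | succ n ih =>
    intro k hk s a ha hsum
    rcases lt_or_ge k 0 with hneg | hnn
    · intro j hj
      exact levelOne_neg (by have := Int.natCast_nonneg (G.d j); omega) (ha j hj)
    obtain ⟨m, rfl⟩ := Int.eq_ofNat_of_zero_le hnn
    have hmn : (m : ℤ) ≤ n := by push_cast at hk; omega
    have hdec : ∀ j, ∃ (c : ℂ) (u v : ℍ → ℂ), j ∈ s → IsMF ⊤ ((m : ℤ) - 4 - G.d j) u ∧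
        IsMF ⊤ ((m : ℤ) - 6 - G.d j) v ∧ a j = Function.const ℍ c + ⇑E₄ * u + ⇑E₆ * v ∧
        (G.d j ≠ m → c = 0) := by
      intro j
      by_cases hj : j ∈ s
      swap
      · exact ⟨0, 0, 0, fun h => absurd h hj⟩
      rcases lt_trichotomy (G.d j) m with h | h | h
      · obtain ⟨u, v, hu, hv, hw⟩ := levelOne_decomp (k := (m : ℤ) - G.d j) (by omega) (ha j hj)
        refine ⟨0, u, v, fun _ => ⟨hu.congr_weight (by ring), hv.congr_weight (by ring), ?_,
          fun _ => rfl⟩⟩
        rw [hw]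
        ext z; simp
      · obtain ⟨c, hc⟩ := levelOne_zero ((ha j hj).congr_weight (by rw [h]; ring))
        refine ⟨c, 0, 0, fun _ => ⟨IsMF.zero, IsMF.zero, ?_, fun h' => absurd h h'⟩⟩
        rw [hc]; ext z; simp
      · have h0 := levelOne_neg (by omega) (ha j hj)
        refine ⟨0, 0, 0, fun _ => ⟨IsMF.zero, IsMF.zero, ?_, fun _ => rfl⟩⟩
        rw [h0]; ext z; simp
    choose c u v hcuv using hdec
    -- the constants vanish
    have hU : IsMF Γ ((m : ℤ) - 4) (∑ j ∈ s, u j * G.g j) :=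
      isMF_sum_mul (d := fun j => (G.d j : ℤ)) G.isMF fun j hj => (hcuv j hj).1
    have hV : IsMF Γ ((m : ℤ) - 6) (∑ j ∈ s, v j * G.g j) :=
      isMF_sum_mul (d := fun j => (G.d j : ℤ)) G.isMF fun j hj => (hcuv j hj).2.1
    have hsplit : ∑ j ∈ s, a j * G.g j = ∑ j ∈ s, c j • G.g j +
        (⇑E₄ * ∑ j ∈ s, u j * G.g j + ⇑E₆ * ∑ j ∈ s, v j * G.g j) := by
      rw [Finset.mul_sum, Finset.mul_sum, ← Finset.sum_add_distrib, ← Finset.sum_add_distrib]
      refine Finset.sum_congr rfl fun j hj => ?_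
      rw [(hcuv j hj).2.2.1]
      ext z; simp; ring
    have hc0 : ∀ j ∈ s, c j = 0 := by
      intro j hj
      by_cases hdj : G.d j = m
      swap
      · exact (hcuv j hj).2.2.2 hdj
      have h1 := G.indep m (fun j => if j ∈ s then c j else 0) (-(∑ j ∈ s, u j * G.g j))
        (-(∑ j ∈ s, v j * G.g j)) hU.neg hV.neg (by
          have h2 : ∑ j ∈ G.L m, (if j ∈ s then c j else 0) • G.g j = ∑ j ∈ s, c j • G.g j := by
            have h3 : ∑ j ∈ s, c j • G.g j = ∑ j ∈ s ∩ G.L m, c j • G.g j := by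
              symm
              refine Finset.sum_subset Finset.inter_subset_left fun j hj hj' => ?_
              rw [(hcuv j hj).2.2.2 (fun h => hj' (Finset.mem_inter.mpr ⟨hj, (G.mem_L m j).mpr h⟩)),
                zero_smul]
            rw [h3, Finset.inter_comm, ← Finset.filter_mem_eq_inter, Finset.sum_filter]
            refine Finset.sum_congr rfl fun j _ => ?_
            split_ifs <;> simp
          rw [h2]
          rw [hsplit] at hsum
          rw [eq_neg_of_add_eq_zero_left hsum]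
          ring) j ((G.mem_L m j).mpr hdj)
      simpa [hj] using h1
    have hsum' : ⇑E₄ * (∑ j ∈ s, u j * G.g j) = -(⇑E₆ * ∑ j ∈ s, v j * G.g j) := by
      rw [hsplit] at hsum
      have h0 : ∑ j ∈ s, c j • G.g j = 0 :=
        Finset.sum_eq_zero fun j hj => by rw [hc0 j hj, zero_smul]
      rw [h0, zero_add] at hsum
      exact eq_neg_of_add_eq_zero_left hsum
    obtain ⟨r, hr, hr1, hr2⟩ := regular hU hV hsum'
    obtain ⟨ρ, hρ1, hρ2⟩ := G.spanning n ((m : ℤ) - 10) (by omega) r hr
    set t : Finset G.J := s ∪ G.upTo ((m : ℤ) - 10).toNat with ht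
    have hst : s ⊆ t := Finset.subset_union_left
    have hρ3 := hρ2 t Finset.subset_union_right
    have hind1 : ∀ j ∈ t, (if j ∈ s then u j else 0) - ⇑E₆ * ρ j = 0 := by
      refine ih ((m : ℤ) - 4) (by omega) t _ ?_ ?_
      · intro j _
        refine IsMF.sub ?_ ((isMF_E6.mul (hρ1 j)).congr_weight (by ring))
        split_ifs with h
        · exact (hcuv j h).1
        · exact IsMF.zero
      · have h1 : ∑ j ∈ s, u j * G.g j = ∑ j ∈ t, (if j ∈ s then u j else 0) * G.g j := by
          rw [← Finset.sum_subset hst]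
          · exact Finset.sum_congr rfl fun j hj => by rw [if_pos hj]
          · intro j _ hj; rw [if_neg hj, zero_mul]
        rw [h1, hρ3, Finset.mul_sum, ← sub_eq_zero, ← Finset.sum_sub_distrib] at hr1
        refine Eq.trans (Finset.sum_congr rfl fun j _ => ?_) hr1
        ring
    have hind2 : ∀ j ∈ t, (if j ∈ s then v j else 0) + ⇑E₄ * ρ j = 0 := by
      refine ih ((m : ℤ) - 6) (by omega) t _ ?_ ?_
      · intro j _
        refine IsMF.add ?_ ((isMF_E4.mul (hρ1 j)).congr_weight (by ring))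
        split_ifs with h
        · exact (hcuv j h).2.1
        · exact IsMF.zero
      · have h1 : ∑ j ∈ s, v j * G.g j = ∑ j ∈ t, (if j ∈ s then v j else 0) * G.g j := by
          rw [← Finset.sum_subset hst]
          · exact Finset.sum_congr rfl fun j hj => by rw [if_pos hj]
          · intro j _ hj; rw [if_neg hj, zero_mul]
        rw [h1, hρ3, Finset.mul_sum, ← add_eq_zero_iff_eq_neg, ← Finset.sum_add_distrib] at hr2
        refine Eq.trans (Finset.sum_congr rfl fun j _ => ?_) hr2
        ring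
    intro j hj
    have h1 := hind1 j (hst hj)
    have h2 := hind2 j (hst hj)
    rw [if_pos hj] at h1 h2
    rw [(hcuv j hj).2.2.1, hc0 j hj]
    have h3 := sub_eq_zero.mp h1
    have h4 := eq_neg_of_add_eq_zero_left h2
    rw [h3, h4]
    ext z; simp; ring

end

end Fermat.Agent.Dim
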