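import Fermat.Agent.MFLib.DeltaN
import Fermat.Agent.MFLib.Esymm

/-! # Level one facts used in the free-module theorem. -/

set_option autoImplicit false

open UpperHalfPlane ModularForm Complex Filter Topology Matrix.SpecialLinearGroup
open scoped MatrixGroups Manifold

namespace Fermat.Agent.Dim

noncomputable section

open Fermat.Agent.MFLib

local notation "Δ" => ModularForm.discriminant

variable {k l : ℤ} {f g : ℍ → ℂ}

lemma levelOne_neg (hk : k < 0) (hf : IsMF ⊤ k f) : f = 0 :=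
  ModularFormClass.levelOne_neg_weight_eq_zero hk hf.toSL

lemma levelOne_odd (hk : Odd k) (hf : IsMF ⊤ k f) : f = 0 := by
  have h1 : hf.toSL = 0 := ModularForm.levelOne_odd_weight_eq_zero hk _
  simpa using congrArg (fun F : ModularForm 𝒮ℒ k => (F : ℍ → ℂ)) h1

lemma levelOne_zero (hf : IsMF ⊤ 0 f) : ∃ c : ℂ, f = Function.const ℍ c := by
  obtain ⟨c, hc'⟩ := ModularFormClass.levelOne_weight_zero_const (hf.toSL (k := 0))
  exact ⟨c, by simpa using hc'⟩

lemma levelOne_two (hf : IsMF ⊤ 2 f) : f = 0 := by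
  have h1 : hf.toSL = 0 :=
    rank_zero_iff_forall_zero.mp ModularForm.levelOne_weight_two_rank_zero (hf.toSL)
  simpa using congrArg (fun F : ModularForm 𝒮ℒ (2 : ℤ) => (F : ℍ → ℂ)) h1

lemma isMF_E4 : IsMF ⊤ 4 (⇑E₄) := IsMF.of_SL E₄
lemma isMF_E6 : IsMF ⊤ 6 (⇑E₆) := IsMF.of_SL E₆

lemma E4_pow_sub_E6_pow : (⇑E₄ : ℍ → ℂ) ^ 3 - (⇑E₆) ^ 2 = (1728 : ℂ) • Δ := by
  rw [disc_eq, smul_smul]; norm_num

/-- level one cusp forms are divisible by `Δ`. -/
lemma levelOne_cusp_div (hf : IsMF ⊤ k f) (h0 : IsZeroAtImInfty f) :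
    ∃ g, IsMF ⊤ (k - 12) g ∧ f = Δ * g := by
  have hcusp : (qExpansion 1 (hf.toSL)).coeff 0 = 0 := by
    rw [PowerSeries.coeff_zero_eq_constantCoeff]
    have h1 : (qExpansion 1 f).constantCoeff = cuspFunction 1 f 0 := by
      rw [← PowerSeries.coeff_zero_eq_constantCoeff, qExpansion_coeff]
      simp
    rw [IsMF.coe_toSL, h1]
    exact Function.Periodic.cuspFunction_zero_of_zero_at_inf one_pos
      h0.zero_at_infty_comp_ofComplex
  set G := ModularForm.toCuspForm _ hcusp with hG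
  refine ⟨CuspForm.discriminantEquiv G, IsMF.of_SL _, ?_⟩
  have h2 := ModularForm.discriminant_mul_discriminantEquiv G
  rw [h2]
  ext z
  simp [hG]

/-- decomposition of level one forms of positive weight. -/
lemma levelOne_decomp (hk : 0 < k) (hf : IsMF ⊤ k f) :
    ∃ a b, IsMF ⊤ (k - 4) a ∧ IsMF ⊤ (k - 6) b ∧ f = ⇑E₄ * a + ⇑E₆ * b := by
  obtain ⟨m, rfl⟩ := Int.eq_ofNat_of_zero_le hk.le
  rcases Nat.even_or_odd m with hev | hodd
  swap
  · rw [levelOne_odd (by exact_mod_cast hodd) hf]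
    exact ⟨0, 0, IsMF.zero, IsMF.zero, by simp⟩
  rcases Nat.lt_or_ge m 3 with hlt | hge
  · have hm : m = 2 := by
      have : 0 < m := by exact_mod_cast hk
      interval_cases m
      · exact absurd hev (by decide)
      · rfl
    subst hm
    have h0 : f = 0 := levelOne_two (by exact_mod_cast hf)
    rw [h0]
    exact ⟨0, 0, IsMF.zero, IsMF.zero, by simp⟩
  · -- subtract a monomial
    obtain ⟨i, j, hij⟩ : ∃ i j : ℕ, 4 * i + 6 * j = m := by
      obtain ⟨r, hr⟩ := hev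
      rcases Nat.even_or_odd r with ⟨s, hs⟩ | ⟨s, hs⟩
      · exact ⟨s, 0, by omega⟩
      · have : 1 ≤ s := by omega
        exact ⟨s - 1, 1, by omega⟩
    have hmon : IsMF ⊤ (m : ℤ) ((⇑E₄) ^ i * (⇑E₆) ^ j) :=
      ((isMF_E4.pow i).mul (isMF_E6.pow j)).congr_weight (by rw [← hij]; push_cast; ring)
    have hmon1 : (qExpansion 1 ((⇑E₄ : ℍ → ℂ) ^ i * (⇑E₆) ^ j)).coeff 0 = 1 := by
      have h4 : (qe (⇑E₄)).coeff 0 = 1 := EisensteinSeries.E_qExpansion_coeff_zero _ ⟨2, rfl⟩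
      have h6 : (qe (⇑E₆)).coeff 0 = 1 := EisensteinSeries.E_qExpansion_coeff_zero _ ⟨3, rfl⟩
      have := (qg_E4.pow i).qe_mul (qg_E6.pow j)
      rw [qg_E4.qe_pow, qg_E6.qe_pow] at this
      simp only [qe, PowerSeries.coeff_zero_eq_constantCoeff] at h4 h6 this ⊢
      rw [this, map_mul, map_pow, map_pow, h4, h6, one_pow, one_pow, one_mul]
    set c : ℂ := (qExpansion 1 f).coeff 0 with hc
    set f' : ℍ → ℂ := f - c • ((⇑E₄) ^ i * (⇑E₆) ^ j) with hf'
    have hf'MF : IsMF ⊤ (m : ℤ) f' := hf.sub (hmon.smul c)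
    have hcusp : (qExpansion 1 (hf'MF.toSL)).coeff 0 = 0 := by
      rw [IsMF.coe_toSL, hf']
      have := (hf.qg_top).qe_sub ((hmon.qg_top).smul c)
      rw [(hmon.qg_top).qe_smul] at this
      rw [qe] at this
      rw [this, map_sub, PowerSeries.coeff_smul, hmon1, ← hc]
      simp
    set G := ModularForm.toCuspForm _ hcusp with hG
    have h2 := ModularForm.discriminant_mul_discriminantEquiv G
    set g : ℍ → ℂ := ⇑(CuspForm.discriminantEquiv G) with hg
    have hgMF : IsMF ⊤ ((m : ℤ) - 12) g := IsMF.of_SL _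
    have hfg : f' = Δ * g := by
      rw [h2]; ext z; simp [hG]
    have hfin : f = c • ((⇑E₄) ^ i * (⇑E₆) ^ j) + Δ * g := by
      rw [← hfg, hf']; ring
    have hΔ : (Δ : ℍ → ℂ) * g = ⇑E₄ * ((1 / 1728 : ℂ) • ((⇑E₄) ^ 2 * g)) +
        ⇑E₆ * ((-1 / 1728 : ℂ) • (⇑E₆ * g)) := by
      ext z
      rw [disc_eq]
      simp
      ring
    have hg1 : IsMF ⊤ ((m : ℤ) - 4) ((1 / 1728 : ℂ) • ((⇑E₄) ^ 2 * g)) :=
      (((isMF_E4.pow 2).mul hgMF).congr_weight (by push_cast; ring)).smul _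
    have hg2 : IsMF ⊤ ((m : ℤ) - 6) ((-1 / 1728 : ℂ) • (⇑E₆ * g)) :=
      ((isMF_E6.mul hgMF).congr_weight (by ring)).smul _
    rcases Nat.eq_zero_or_pos i with hi | hi
    · have hj : 1 ≤ j := by omega
      obtain ⟨j, rfl⟩ := Nat.exists_eq_add_of_le' hj
      refine ⟨_, c • (⇑E₆) ^ j + (-1 / 1728 : ℂ) • (⇑E₆ * g), hg1, ?_, ?_⟩
      · exact (((isMF_E6.pow j).congr_weight (by rw [← hij, hi]; push_cast; ring)).smul c).add hg2
      · rw [hfin, hΔ, hi]
        ext z; simp; ring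
    · obtain ⟨i, rfl⟩ := Nat.exists_eq_add_of_le' hi
      refine ⟨c • ((⇑E₄) ^ i * (⇑E₆) ^ j) + (1 / 1728 : ℂ) • ((⇑E₄) ^ 2 * g), _, ?_, hg2, ?_⟩
      · exact ((((isMF_E4.pow i).mul (isMF_E6.pow j)).congr_weight
          (by rw [← hij]; push_cast; ring)).smul c).add hg1
      · rw [hfin, hΔ]
        ext z; simp; ring

/-- Eisenstein series tend to `1`. -/
lemma tendsto_of_coeff_zero (hf : IsMF ⊤ k f) :
    Tendsto f atImInfty (𝓝 ((qExpansion 1 f).coeff 0)) := by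
  have h1 : (qExpansion 1 f).coeff 0 = cuspFunction 1 f 0 := by
    rw [qExpansion_coeff]; simp
  rw [h1]
  have h2 := hf.qg_top
  have h3 : Tendsto (fun τ : ℍ ↦ Function.Periodic.qParam (1 : ℝ) τ) atImInfty (𝓝 0) :=
    (UpperHalfPlane.qParam_tendsto_atImInfty zero_lt_one)
  have h4 := (h2.analyticAt.continuousAt.tendsto).comp h3
  refine h4.congr fun τ => ?_
  exact eq_cuspFunction τ one_ne_zero h2.per

lemma tendsto_E4 : Tendsto (⇑E₄ : ℍ → ℂ) atImInfty (𝓝 1) := by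
  have := tendsto_of_coeff_zero isMF_E4
  rwa [show (qExpansion 1 (⇑E₄)).coeff 0 = 1 from
    EisensteinSeries.E_qExpansion_coeff_zero _ ⟨2, rfl⟩] at this

lemma tendsto_E6 : Tendsto (⇑E₆ : ℍ → ℂ) atImInfty (𝓝 1) := by
  have := tendsto_of_coeff_zero isMF_E6
  rwa [show (qExpansion 1 (⇑E₆)).coeff 0 = 1 from
    EisensteinSeries.E_qExpansion_coeff_zero _ ⟨3, rfl⟩] at this

/-- for even weights `≥ 4` there is a level one form with value `1` at infinity. -/
lemma exists_levelOne_tendsto_one {k : ℕ} (hk : 4 ≤ k) (hev : Even k) :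
    ∃ e, IsMF ⊤ (k : ℤ) e ∧ Tendsto e atImInfty (𝓝 1) := by
  have hk3 : 3 ≤ k := by omega
  refine ⟨E hk3, isMF_E hk3, ?_⟩
  have := tendsto_of_coeff_zero (isMF_E hk3)
  rwa [show (qExpansion 1 (⇑(E hk3))).coeff 0 = 1 from
    EisensteinSeries.E_qExpansion_coeff_zero _ hev] at this

end

end Fermat.Agent.Dim
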