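import Fermat.Agent.Dim.Basis

/-! # The Serre derivative and invertibility of the matrix of conjugates. -/

set_option autoImplicit false

open UpperHalfPlane ModularForm Complex Filter Topology Matrix.SpecialLinearGroup Matrix
open scoped MatrixGroups Manifold

namespace Fermat.Agent.Dim

noncomputable section

open Fermat.Agent.MFLib

set_option linter.unusedSectionVars false

local notation "Δ" => ModularForm.discriminant

variable {k l : ℤ} {f g : ℍ → ℂ} {Γ : Subgroup SL(2, ℤ)}

lemma bdd_D {f : ℍ → ℂ} (hf : MDiff f) (hb : IsBoundedAtImInfty f) :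
    IsBoundedAtImInfty (Derivative.normalizedDerivOfComplex f) := by
  rw [UpperHalfPlane.isBoundedAtImInfty_iff] at hb ⊢
  obtain ⟨M, A, hM⟩ := hb
  refine ⟨‖(2 * Real.pi * Complex.I : ℂ)⁻¹‖ * (M / 1), max A 0 + 2, fun z hz => ?_⟩
  rw [Derivative.normalizedDerivOfComplex, norm_mul]
  refine mul_le_mul_of_nonneg_left ?_ (norm_nonneg _)
  have him : ∀ w : ℂ, w ∈ Metric.closedBall (z : ℂ) 1 → max A 0 < w.im := by
    intro w hw
    rw [Metric.mem_closedBall, Complex.dist_eq] at hw
    have h1 : |(w - z).im| ≤ 1 := (Complex.abs_im_le_norm _).trans hw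
    rw [Complex.sub_im, abs_le] at h1
    have h2 : (z : ℂ).im = z.im := rfl
    rw [h2] at h1
    linarith [h1.1]
  have hd : DifferentiableOn ℂ (f ∘ ofComplex) {w | 0 < w.im} :=
    UpperHalfPlane.mdifferentiable_iff.mp hf
  refine Complex.norm_deriv_le_of_forall_mem_sphere_norm_le one_pos ?_ ?_
  · refine DifferentiableOn.diffContOnCl ?_
    rw [closure_ball _ one_ne_zero]
    exact hd.mono fun w hw => lt_of_le_of_lt (le_max_right _ _) (him w hw)
  · intro w hw
    have hw' := him w (Metric.sphere_subset_closedBall hw)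
    have hw0 : 0 < w.im := lt_of_le_of_lt (le_max_right _ _) hw'
    rw [Function.comp_apply, ofComplex_apply_of_im_pos hw0]
    exact hM _ ((le_max_left A 0).trans hw'.le)

lemma isMF_serre (hf : IsMF Γ k f) : IsMF Γ (k + 2) (Derivative.serreDerivative k f) where
  holo := Derivative.serreDerivative_mdifferentiable k hf.holo
  bdd γ := by
    rw [Derivative.serreDerivative_slash_equivariant hf.holo]
    have h1 := (hf.toHB.slash γ)
    have h2 := bdd_D h1.holo h1.bdd_self
    have h3 : IsBoundedAtImInfty (EisensteinSeries.E2 * (f ∣[k] γ)) :=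
      EisensteinSeries.isBoundedAtImInfty_E2.mul h1.bdd_self
    have h4 : IsBoundedAtImInfty ((-((k : ℂ) * 12⁻¹)) • (EisensteinSeries.E2 * (f ∣[k] γ))) :=
      h3.const_smul_left _
    have h5 := h2.add h4
    refine h5.congr_left fun z => ?_
    simp [Derivative.serreDerivative]
    ring
  slash γ hγ := Derivative.serreDerivative_slash_invariant hf.holo (hf.slash γ hγ)

lemma conj_serre (hf : IsMF Γ k f) (q : SL(2, ℤ) ⧸ Γ) :
    MFLib.conj Γ (k + 2) (Derivative.serreDerivative k f) q =
      Derivative.serreDerivative k (MFLib.conj Γ k f q) := by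
  rw [MFLib.conj, Derivative.serreDerivative_slash_equivariant hf.holo]
  rfl

/-- vanishing order at a point -/
def oAt (f : ℍ → ℂ) (z : ℍ) : ℕ∞ := analyticOrderAt (f ∘ ofComplex) (z : ℂ)

lemma analyticAt_mdiff (hf : MDiff f) (z : ℍ) : AnalyticAt ℂ (f ∘ ofComplex) (z : ℂ) :=
  (UpperHalfPlane.mdifferentiable_iff.mp hf).analyticAt (isOpen_upperHalfPlaneSet.mem_nhds z.2)

lemma oAt_mul_ge {n : ℕ∞} (hf : MDiff f) (hg : MDiff g) {z : ℍ} (h : n ≤ oAt g z) :
    n ≤ oAt (fun w => f w * g w) z := by
  have h1 : oAt (fun w => f w * g w) z = oAt f z + oAt g z :=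
    analyticOrderAt_mul (analyticAt_mdiff hf z) (analyticAt_mdiff hg z)
  rw [h1]
  exact h.trans le_add_self

lemma oAt_sum_ge {n : ℕ∞} {ι : Type*} (s : Finset ι) (F : ι → ℍ → ℂ) {z : ℍ}
    (h : ∀ i ∈ s, n ≤ oAt (F i) z) : n ≤ oAt (fun w => ∑ i ∈ s, F i w) z := by
  classical
  induction s using Finset.induction_on with
  | empty =>
    have : oAt (fun w => ∑ i ∈ (∅ : Finset ι), F i w) z = ⊤ := by
      rw [oAt, analyticOrderAt_eq_top]
      exact Eventually.of_forall fun w => by simp
    rw [this]; exact le_top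
  | insert i s hi ih =>
    have h1 : (fun w => ∑ j ∈ insert i s, F j w) ∘ ofComplex =
      (F i) ∘ ofComplex + (fun w => ∑ j ∈ s, F j w) ∘ ofComplex := by
      ext w
      simp [Finset.sum_insert hi]
    rw [oAt, h1]
    refine le_trans ?_ le_analyticOrderAt_add
    rw [le_min_iff]
    exact ⟨h i (Finset.mem_insert_self i s), ih fun j hj => h j (Finset.mem_insert_of_mem hj)⟩

lemma oAt_D {n : ℕ} (hf : MDiff f) {z : ℍ} (h0 : f z = 0)
    (h : (n : ℕ∞) ≤ oAt (Derivative.normalizedDerivOfComplex f) z) :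
    ((n + 1 : ℕ) : ℕ∞) ≤ oAt f z := by
  have h1 : (Derivative.normalizedDerivOfComplex f ∘ ofComplex) =ᶠ[𝓝 (z : ℂ)]
      (fun _ => (2 * Real.pi * Complex.I : ℂ)⁻¹) * deriv (f ∘ ofComplex) := by
    filter_upwards [isOpen_upperHalfPlaneSet.mem_nhds z.2] with w hw
    simp only [Function.comp_apply, Derivative.normalizedDerivOfComplex, Pi.mul_apply]
    rw [ofComplex_apply_of_im_pos hw]
  rw [oAt, analyticOrderAt_congr h1, analyticOrderAt_mul analyticAt_const
    (analyticAt_mdiff hf z).deriv] at h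
  have h2 : analyticOrderAt (fun _ : ℂ => (2 * Real.pi * Complex.I : ℂ)⁻¹) (z : ℂ) = 0 := by
    rw [analyticAt_const.analyticOrderAt_eq_zero]
    simp [Real.pi_ne_zero]
  rw [h2, zero_add, analyticOrderAt_deriv_ge_iff (analyticAt_mdiff hf z) (by
    simpa [ofComplex_apply] using h0)] at h
  exact_mod_cast h

lemma eq_zero_of_oAt (hf : MDiff f) {z : ℍ} (h : ∀ n : ℕ, (n : ℕ∞) ≤ oAt f z) : f = 0 := by
  have h1 : oAt f z = ⊤ := ENat.eq_top_iff_forall_ge.mpr h
  rw [oAt, analyticOrderAt_eq_top] at h1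
  refine UpperHalfPlane.eq_zero_of_frequently (τ := z) hf ?_
  refine Eventually.frequently ?_
  refine eventually_nhdsWithin_of_eventually_nhds ?_
  have h2 := UpperHalfPlane.continuous_coe.continuousAt.eventually h1
  exact h2.mono fun w hw => by simpa [ofComplex_apply] using hw

/-- uniqueness for holomorphic linear systems -/
lemma system_eq_zero {ι : Type*} (y : ι → ℍ → ℂ) (hy : ∀ i, MDiff (y i)) (z : ℍ)
    (h0 : ∀ i, y i z = 0)
    (hB : ∀ j, ∃ (t : Finset ι) (b : ι → ℍ → ℂ), (∀ i ∈ t, MDiff (b i)) ∧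
      Derivative.normalizedDerivOfComplex (y j) = fun w => ∑ i ∈ t, b i w * y i w) :
    ∀ j, y j = 0 := by
  have key : ∀ n : ℕ, ∀ j, (n : ℕ∞) ≤ oAt (y j) z := by
    intro n
    induction n with
    | zero => intro j; simp
    | succ n ih =>
      intro j
      refine oAt_D (hy j) (h0 j) ?_
      obtain ⟨t, b, hb, he⟩ := hB j
      rw [he]
      exact oAt_sum_ge t (fun i w => b i w * y i w) fun i hi => oAt_mul_ge (hb i hi) (hy i) (ih i)
  exact fun j => eq_zero_of_oAt (hy j) fun n => key n j

lemma D_sum {ι : Type*} (s : Finset ι) (F : ι → ℍ → ℂ) (h : ∀ i ∈ s, MDiff (F i)) :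
    Derivative.normalizedDerivOfComplex (∑ i ∈ s, F i) =
      ∑ i ∈ s, Derivative.normalizedDerivOfComplex (F i) := by
  classical
  induction s using Finset.induction_on with
  | empty =>
    simp only [Finset.sum_empty]
    exact Derivative.normalizedDerivOfComplex_const 0
  | insert i s hi ih =>
    rw [Finset.sum_insert hi, Finset.sum_insert hi, ← ih fun j hj => h j (Finset.mem_insert_of_mem hj)]
    refine Derivative.normalizedDerivOfComplex_add _ _ (h i (Finset.mem_insert_self i s)) ?_
    have := mdiff_sum s F fun j hj => h j (Finset.mem_insert_of_mem hj)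
    convert this using 1
    ext w; simp

variable [Γ.FiniteIndex]

theorem Gens.kernel_const (G : Gens Γ) (z₀ : ℍ) (φ : SL(2, ℤ) ⧸ Γ → ℂ)
    (h : ∀ j, V Γ (G.d j) (G.g j) z₀ ⬝ᵥ φ = 0) (j : G.J) (z : ℍ) :
    V Γ (G.d j) (G.g j) z ⬝ᵥ φ = 0 := by
  classical
  set y : G.J → ℍ → ℂ := fun j z => V Γ (G.d j) (G.g j) z ⬝ᵥ φ with hy
  have hmd : ∀ i, MDiff (y i) := by
    intro i
    exact mdiff_sum _ _ fun x _ => mdiff_mul (mdiff_V (G.isMF i).toHB x) mdifferentiable_const
  have hD : ∀ i w, Derivative.normalizedDerivOfComplex (y i) w =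
      V Γ (G.d i + 2) (Derivative.serreDerivative (G.d i) (G.g i)) w ⬝ᵥ φ +
        ((G.d i : ℂ) * 12⁻¹ * EisensteinSeries.E2 w) * y i w := by
    intro i w
    have h1 : y i = ∑ x, (φ x) • (MFLib.conj Γ (G.d i) (G.g i) x) := by
      ext w
      simp [hy, V, dotProduct, Finset.sum_apply, mul_comm]
    have h2 : ∀ x, V Γ (G.d i + 2) (Derivative.serreDerivative (G.d i) (G.g i)) w x =
        Derivative.normalizedDerivOfComplex (MFLib.conj Γ (G.d i) (G.g i) x) w -
        (G.d i : ℂ) * 12⁻¹ * EisensteinSeries.E2 w * V Γ (G.d i) (G.g i) w x := by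
      intro x
      have h3 := conj_serre (G.isMF i) x
      have h4 := congrFun h3 w
      rw [Derivative.serreDerivative_apply] at h4
      simpa [V] using h4
    conv_lhs => rw [h1]
    rw [D_sum _ _ fun x _ => ((G.isMF i).toHB.conj x).holo.const_smul _, Finset.sum_apply]
    simp only [hy, dotProduct]
    rw [Finset.mul_sum, ← Finset.sum_add_distrib]
    refine Finset.sum_congr rfl fun x _ => ?_
    rw [Derivative.normalizedDerivOfComplex_smul _ _ ((G.isMF i).toHB.conj x).holo, h2]
    simp only [Pi.smul_apply, smul_eq_mul]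
    ring
  have := system_eq_zero y hmd z₀ h (by
    intro i
    obtain ⟨a, ha1, ha2⟩ := G.spanning (G.d i + 3) (G.d i + 2) (by push_cast; omega) _
      (isMF_serre (G.isMF i))
    set t : Finset G.J := {i} ∪ G.upTo ((G.d i : ℤ) + 2).toNat with ht
    have h3 := ha2 t Finset.subset_union_right
    refine ⟨t, fun m => a m + if m = i then (fun w => (G.d i : ℂ) * 12⁻¹ * EisensteinSeries.E2 w)
      else 0, ?_, ?_⟩
    · intro m _
      refine (ha1 m).holo.add ?_
      split_ifs
      · exact mdiff_mul mdifferentiable_const E2_mdifferentiable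
      · exact mdifferentiable_const
    · ext w
      rw [hD i w]
      have h4 : V Γ (G.d i + 2) (Derivative.serreDerivative (G.d i) (G.g i)) w ⬝ᵥ φ =
          ∑ m ∈ t, a m w * y m w := by
        have h5 : Derivative.serreDerivative (G.d i) (G.g i) = ∑ m ∈ t, a m * G.g m := by
          exact_mod_cast h3
        rw [h5, V_sum, sum_dotProduct]
        refine Finset.sum_congr rfl fun m _ => ?_
        have h6 : V Γ ((G.d i : ℤ) + 2) (a m * G.g m) w = a m w • V Γ (G.d m) (G.g m) w := by
          rw [← V_levelOne_mul (ha1 m)]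
          congr 1
          ring
        rw [h6, smul_dotProduct, smul_eq_mul]
      rw [h4]
      simp_rw [Pi.add_apply, add_mul]
      rw [Finset.sum_add_distrib]
      congr 1
      rw [Finset.sum_eq_single i]
      · simp
      · intro m _ hm
        simp [hm]
      · intro h; exact absurd (Finset.mem_union_left _ (Finset.mem_singleton_self i)) h)
  exact congrFun (this j) z

end

end Fermat.Agent.Dim
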